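/-
Euler characteristics of two term complexes differing by a skyscraper; monic-free divisibility
lemmas in rings finite over a polynomial ring.
-/
import Mathlib

set_option autoImplicit false

universe u

open Module Polynomial

namespace Fermat.Agent.Jacobian.FieldTheory

/-- The effect of one point on the two cohomology groups of a two term complex. -/
theorem complex_step {F A B A' B' : Type*} [Field F] [AddCommGroup A] [Module F A]
    [AddCommGroup B] [Module F B] [AddCommGroup A'] [Module F A'] [AddCommGroup B'] [Module F B']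
    (d : A →ₗ[F] B) (d' : A' →ₗ[F] B') (f : A →ₗ[F] A') (g : B →ₗ[F] B') (ev : A' →ₗ[F] F)
    (comm : ∀ a, d' (f a) = g (d a)) (hf : Function.Injective f) (hg : Function.Injective g)
    (surj : ∀ b', ∃ a', b' - d' a' ∈ LinearMap.range g)
    (kerev : ∀ a', d' a' ∈ LinearMap.range g → ev a' = 0 → a' ∈ LinearMap.range f)
    (evf : ∀ a, ev (f a) = 0) (one : ∃ a', d' a' ∈ LinearMap.range g ∧ ev a' = 1)
    [Module.Finite F (LinearMap.ker d')] [Module.Finite F (B ⧸ LinearMap.range d)] :
    (finrank F (LinearMap.ker d) ≤ finrank F (LinearMap.ker d')) ∧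
    (finrank F (B' ⧸ LinearMap.range d') ≤ finrank F (B ⧸ LinearMap.range d)) ∧
    ((finrank F (LinearMap.ker d') : ℤ) - finrank F (B' ⧸ LinearMap.range d') =
      finrank F (LinearMap.ker d) - finrank F (B ⧸ LinearMap.range d) + 1) ∧
    ((∃ a' ∈ LinearMap.ker d', ev a' ≠ 0) →
      finrank F (LinearMap.ker d') = finrank F (LinearMap.ker d) + 1) ∧
    ((∀ a' ∈ LinearMap.ker d', ev a' = 0) →
      finrank F (LinearMap.ker d') = finrank F (LinearMap.ker d)) := by
  let φ : LinearMap.ker d →ₗ[F] LinearMap.ker d' :=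
    (f.comp (LinearMap.ker d).subtype).codRestrict _ fun a => by
      have : d (a : A) = 0 := a.2
      simp [LinearMap.mem_ker, comm, this]
  have hφ : Function.Injective φ := fun a b h => Subtype.ext (hf (congrArg Subtype.val h))
  let e : LinearMap.ker d' →ₗ[F] F := ev.comp (LinearMap.ker d').subtype
  have hker : LinearMap.ker e = LinearMap.range φ := by
    ext a'
    refine ⟨fun ha => ?_, ?_⟩
    · obtain ⟨a, ha'⟩ := kerev a' (by rw [LinearMap.mem_ker.mp a'.2]; exact zero_mem _) ha
      refine ⟨⟨a, hg ?_⟩, Subtype.ext ha'⟩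
      rw [← comm, ha', map_zero, LinearMap.mem_ker.mp a'.2]
    · rintro ⟨a, rfl⟩
      exact evf a
  have h0eq : finrank F (LinearMap.range e) + finrank F (LinearMap.ker d) =
      finrank F (LinearMap.ker d') := by
    rw [← e.finrank_range_add_finrank_ker, hker, LinearMap.finrank_range_of_inj hφ]
  let ψ : (B ⧸ LinearMap.range d) →ₗ[F] (B' ⧸ LinearMap.range d') :=
    Submodule.mapQ _ _ g (by
      rintro _ ⟨a, rfl⟩
      exact ⟨f a, comm a⟩)
  have hψ : Function.Surjective ψ := fun y => by
    obtain ⟨b', rfl⟩ := Submodule.Quotient.mk_surjective _ y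
    obtain ⟨a', b, hb⟩ := surj b'
    refine ⟨Submodule.Quotient.mk b, ?_⟩
    rw [Submodule.mapQ_apply, Submodule.Quotient.eq]
    exact ⟨-a', by rw [map_neg, hb]; abel⟩
  obtain ⟨a₁, ⟨b₁, hb₁⟩, ha₁⟩ := one
  let v : B ⧸ LinearMap.range d := Submodule.Quotient.mk b₁
  have hkψ : LinearMap.ker ψ = Submodule.span F {v} := by
    refine le_antisymm (fun y hy => ?_) ?_
    · obtain ⟨b, rfl⟩ := Submodule.Quotient.mk_surjective _ y
      rw [LinearMap.mem_ker, Submodule.mapQ_apply, Submodule.Quotient.mk_eq_zero] at hy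
      obtain ⟨a', ha'⟩ := hy
      obtain ⟨a, ha⟩ := kerev (a' - ev a' • a₁) ⟨b - ev a' • b₁, by simp [ha', hb₁]⟩ (by simp [ha₁])
      refine Submodule.mem_span_singleton.mpr ⟨ev a', ?_⟩
      have : d a = b - ev a' • b₁ := hg (by rw [← comm, ha]; simp [ha', hb₁])
      show Submodule.Quotient.mk (ev a' • b₁) = Submodule.Quotient.mk b
      rw [Submodule.Quotient.eq]
      exact ⟨-a, by rw [map_neg, this]; abel⟩
    · rw [Submodule.span_singleton_le_iff_mem, LinearMap.mem_ker]
      exact (Submodule.Quotient.mk_eq_zero _).mpr ⟨a₁, hb₁.symm⟩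
  have hv : v = 0 ↔ ∃ a' ∈ LinearMap.ker d', ev a' ≠ 0 := by
    constructor
    · intro h
      obtain ⟨a, ha⟩ := (Submodule.Quotient.mk_eq_zero _).mp h
      exact ⟨a₁ - f a, by simp [comm, ha, hb₁], by simp [ha₁, evf]⟩
    · rintro ⟨a', ha', hev⟩
      obtain ⟨a, ha⟩ := kerev (a₁ - (ev a')⁻¹ • a')
        ⟨b₁, by simp [LinearMap.mem_ker.mp ha', hb₁]⟩ (by simp [ha₁, hev])
      refine (Submodule.Quotient.mk_eq_zero _).mpr ⟨a, hg ?_⟩
      rw [← comm, ha, hb₁]
      simp [LinearMap.mem_ker.mp ha']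
  have h1eq : finrank F (B ⧸ LinearMap.range d) =
      finrank F (B' ⧸ LinearMap.range d') + finrank F (Submodule.span F {v}) := by
    rw [← ψ.finrank_range_add_finrank_ker, hkψ, LinearMap.range_eq_top.mpr hψ, finrank_top]
  by_cases h : ∃ a' ∈ LinearMap.ker d', ev a' ≠ 0
  · have hs : finrank F (LinearMap.range e) = 1 := by
      obtain ⟨a', ha', hev⟩ := h
      have : LinearMap.range e = ⊤ :=
        LinearMap.range_eq_top.mpr (LinearMap.surjective fun h0 => hev (LinearMap.congr_fun h0 ⟨a', ha'⟩))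
      rw [this, finrank_top, finrank_self]
    have h1 : finrank F (Submodule.span F {v}) = 0 := by
      rw [hv.mpr h, Submodule.span_zero_singleton, finrank_bot]
    refine ⟨by omega, by omega, by omega, fun _ => by omega, fun h' => ?_⟩
    obtain ⟨a', ha', hev⟩ := h
    exact absurd (h' a' ha') hev
  · have hs : finrank F (LinearMap.range e) = 0 := by
      push Not at h
      have : LinearMap.range e = ⊥ :=
        LinearMap.range_eq_bot.mpr (LinearMap.ext fun a => h a a.2)
      rw [this, finrank_bot]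
    have h1 : finrank F (Submodule.span F {v}) = 1 :=
      finrank_span_singleton fun h0 => h (hv.mp h0)
    exact ⟨by omega, by omega, by omega, fun h' => absurd h' h, fun _ => by omega⟩

/-- In a domain finite over a polynomial ring, a nonzero element divides a nonzero polynomial in
the coordinate. -/
theorem exists_poly_dvd {F : Type*} [CommRing F] {A : Type*} [CommRing A] [IsDomain A]
    (φ : F[X] →+* A) (hfin : φ.Finite) {a : A} (ha : a ≠ 0) :
    ∃ h : F[X], h ≠ 0 ∧ a ∣ φ h := by
  obtain ⟨P, hP, h0⟩ := hfin.to_isIntegral a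
  rw [← Polynomial.eval_map] at h0
  obtain ⟨n, Q, hQ, hQ0⟩ : ∃ (n : ℕ) (Q : (F[X])[X]), P = X ^ n * Q ∧ Q.coeff 0 ≠ 0 := by
    refine ⟨P.natTrailingDegree, ?_⟩
    obtain ⟨Q, hQ⟩ : (X : (F[X])[X]) ^ P.natTrailingDegree ∣ P :=
      X_pow_dvd_iff.mpr fun m hm => coeff_eq_zero_of_lt_natTrailingDegree hm
    refine ⟨Q, hQ, fun hc => ?_⟩
    have : Nontrivial F[X] := φ.domain_nontrivial
    have hne : P ≠ 0 := hP.ne_zero
    have : P.coeff P.natTrailingDegree = 0 := by
      have e := congrArg (fun R => R.coeff P.natTrailingDegree) hQ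
      simp only [coeff_X_pow_mul', le_refl, if_true, Nat.sub_self] at e
      rw [e, hc]
    exact hne (trailingCoeff_eq_zero.mp this)
  refine ⟨Q.coeff 0, hQ0, ?_⟩
  rw [hQ, Polynomial.map_mul, Polynomial.map_pow, map_X, eval_mul, eval_pow, eval_X,
    mul_eq_zero, or_iff_right (pow_ne_zero n ha)] at h0
  have hc : φ (Q.coeff 0) = (Q.map φ).eval 0 := by rw [← coeff_zero_eq_eval_zero, coeff_map]
  rw [hc]
  have := sub_dvd_eval_sub a 0 (Q.map φ)
  rwa [h0, sub_zero, zero_sub, dvd_neg] at this

end Fermat.Agent.Jacobian.FieldTheory
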