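/-
Functions on integral schemes and their sections of line systems; small cover lemmas.
-/
import Fermat.Agent.Jacobian.Core.Defs
import Fermat.Agent.Jacobian.Line.AffineBaseChange

set_option autoImplicit false
set_option linter.unusedVariables false

universe u

open CategoryTheory AlgebraicGeometry TopologicalSpace Opposite

noncomputable section

namespace Fermat.Agent.Jacobian.FieldTheory

variable {X T : Scheme.{u}}

/-- Functions are determined on the traces of a cover. -/
theorem fun_eq_of_cover {ι : Type*} {W : X.Opens} (V : ι → X.Opens) (h : W ≤ iSup V)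
    {a b : Γ(X, W)}
    (H : ∀ i, res (inf_le_left : W ⊓ V i ≤ W) a = res inf_le_left b) : a = b :=
  fun_ext (fun i => W ⊓ V i) (fun i => inf_le_left)
    (fun p hp => by
      obtain ⟨i, hi⟩ := Opens.mem_iSup.mp (h hp)
      exact Opens.mem_iSup.mpr ⟨i, hp, hi⟩) H

/-- Functions glue on the traces of a cover. -/
theorem exists_glue_inter {ι : Type*} {W : X.Opens} (V : ι → X.Opens) (h : W ≤ iSup V)
    (a : ∀ i, Γ(X, W ⊓ V i))
    (H : ∀ i j (A : X.Opens) (hi : A ≤ W ⊓ V i) (hj : A ≤ W ⊓ V j),
      res hi (a i) = res hj (a j)) :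
    ∃ b : Γ(X, W), ∀ i, res inf_le_left b = a i :=
  exists_glue_fun (fun i => W ⊓ V i) (fun i => inf_le_left)
    (fun p hp => by
      obtain ⟨i, hi⟩ := Opens.mem_iSup.mp (h hp)
      exact Opens.mem_iSup.mpr ⟨i, hp, hi⟩) a (fun i j => H i j _ inf_le_left inf_le_right)

section Integral

variable [IsIntegral X]

theorem res_injective {U V : X.Opens} (h : V ≤ U) (hV : (V : Set X).Nonempty) :
    Function.Injective (res h) :=
  @map_injective_of_isIntegral X _ V U (homOfLE h) hV.to_subtype

theorem inter_nonempty {U V : X.Opens} (hU : (U : Set X).Nonempty) (hV : (V : Set X).Nonempty) :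
    ((U ⊓ V : X.Opens) : Set X).Nonempty :=
  nonempty_preirreducible_inter U.isOpen V.isOpen hU hV

/-- A section vanishing on a nonempty open set is zero. -/
theorem sec_eq_zero {L : LineSys X} {V V' : X.Opens} (h : V' ≤ V) (hV' : (V' : Set X).Nonempty)
    {s : L.Sec V} (hs : s.restrict h = 0) : s = 0 := by
  refine LineSys.Sec.ext fun x W hW hx => ?_
  rcases (W : Set X).eq_empty_or_nonempty with hW0 | hW0
  · have : W = ⊥ := Opens.ext hW0
    subst this
    haveI : Subsingleton Γ(X, (⊥ : X.Opens)) :=
      CommRingCat.subsingleton_of_isTerminal X.sheaf.isTerminalOfEmpty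
    exact Subsingleton.elim _ _
  · refine res_injective (inf_le_left : W ⊓ V' ≤ W) (inter_nonempty hW0 hV') ?_
    rw [s.coord_res, LineSys.Sec.coord_zero, map_zero]
    exact congrArg (fun t : L.Sec V' => t.coord x (W ⊓ V') inf_le_right (inf_le_left.trans hx)) hs

end Integral

end Fermat.Agent.Jacobian.FieldTheory
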