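/-
Global sections as cycles of the two term complex of two opens covering the space.
-/
import Fermat.Agent.Jacobian.FieldTheory.Sections

set_option autoImplicit false
set_option linter.unusedVariables false

universe u

open CategoryTheory AlgebraicGeometry TopologicalSpace Opposite

noncomputable section

namespace Fermat.Agent.Jacobian.FieldTheory

variable {X T : Scheme.{u}} (p : X ⟶ T) (L : LineSys X) (U0 U1 : X.Opens)

theorem cechD_apply (s : SecOver p L U0 × SecOver p L U1) :
    cechD p L U0 U1 s = secRes p L inf_le_left s.1 - secRes p L inf_le_right s.2 := by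
  rw [cechD, LinearMap.coprod_apply, LinearMap.neg_apply, sub_eq_add_neg]

/-- Global sections as cycles. -/
def toKer : SecOver p L ⊤ →ₗ[Γ(T, ⊤)] LinearMap.ker (cechD p L U0 U1) :=
  ((secRes p L le_top).prod (secRes p L le_top)).codRestrict _ fun s => by
    rw [LinearMap.mem_ker, cechD_apply]
    exact sub_eq_zero.mpr rfl

theorem toKer_bijective (hcov : U0 ⊔ U1 = ⊤) : Function.Bijective (toKer p L U0 U1) := by
  have hc : (⊤ : X.Opens) ≤ iSup fun b : Bool => if b then U0 else U1 := by
    rw [← hcov]
    exact sup_le (le_iSup (fun b : Bool => if b then U0 else U1) true)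
      (le_iSup (fun b : Bool => if b then U0 else U1) false)
  constructor
  · intro s t h
    refine LineSys.Sec.ext_of_cover (V := ⊤) _ (fun _ => le_top) hc fun b => ?_
    cases b
    · exact congrArg (fun z => Prod.snd (Subtype.val z)) h
    · exact congrArg (fun z => Prod.fst (Subtype.val z)) h
  · rintro ⟨⟨s0, s1⟩, hs⟩
    rw [LinearMap.mem_ker, cechD_apply, sub_eq_zero] at hs
    have key : ∀ (x : X) (W : X.Opens) (h0 : W ≤ U0) (h1 : W ≤ U1) (hx : W ≤ L.U x),
        LineSys.Sec.coord (L := L) s0 x W h0 hx = LineSys.Sec.coord (L := L) s1 x W h1 hx :=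
      fun x W h0 h1 hx =>
        congrArg (fun z => LineSys.Sec.coord (L := L) z x W (le_inf h0 h1) hx) hs
    obtain ⟨t, ht, -⟩ := LineSys.Sec.existsUnique_glue (L := L) (V := ⊤)
      (fun b : Bool => if b then U0 else U1) (fun _ => le_top) hc
      (fun b => match b with | true => s0 | false => s1) (by
        rintro (_ | _) (_ | _) <;> refine LineSys.Sec.ext fun x W hW hx => ?_
        · rfl
        · exact (key x W (hW.trans inf_le_right) (hW.trans inf_le_left) hx).symm
        · exact key x W (hW.trans inf_le_left) (hW.trans inf_le_right) hx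
        · rfl)
    exact ⟨t, Subtype.ext (Prod.ext (ht true) (ht false))⟩

theorem finrank_sec_top (hcov : U0 ⊔ U1 = ⊤) :
    Module.finrank Γ(T, ⊤) (SecOver p L ⊤) =
      Module.finrank Γ(T, ⊤) (LinearMap.ker (cechD p L U0 U1)) :=
  (LinearEquiv.ofBijective _ (toKer_bijective p L U0 U1 hcov)).finrank_eq

end Fermat.Agent.Jacobian.FieldTheory
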