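/-
Division of sections by the section of a divisor.
-/
import Fermat.Agent.Jacobian.FieldTheory.Sections
import Fermat.Agent.Jacobian.Divisor.Equations

set_option autoImplicit false
set_option linter.unusedVariables false

universe u

open CategoryTheory AlgebraicGeometry TopologicalSpace Opposite

noncomputable section

namespace Fermat.Agent.Jacobian.FieldTheory

variable {X T Z : Scheme.{u}}

/-- A point has an affine neighbourhood inside any open containing it. -/
theorem exists_affine_nhd {U : X.Opens} {z : X} (hz : z ∈ U) :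
    ∃ W : X.Opens, IsAffineOpen W ∧ z ∈ W ∧ W ≤ U := by
  obtain ⟨_, ⟨W, hW, rfl⟩, hzW, hWU⟩ :=
    X.isBasis_affineOpens.exists_subset_of_mem_open hz U.isOpen
  exact ⟨W, hW, hzW, hWU⟩

theorem regularOn_coord {i : Z ⟶ X} (E : LineDivisor i) (x : X) (W : X.Opens)
    (hx : W ≤ E.L.U x) : RegularOn (E.s.coord x W le_top hx) := by
  intro V hV
  rw [E.s.coord_res, isRegular_iff_eq_zero_of_mul]
  refine ⟨fun a ha => ?_, fun a ha => ?_⟩ <;>
  · refine fun_eq_of_cover (fun A : {A : X.Opens // IsAffineOpen A ∧ A ≤ V} => A.1)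
      (fun z hz => ?_) fun A => ?_
    · obtain ⟨A, hA, hzA, hAV⟩ := exists_affine_nhd hz
      exact Opens.mem_iSup.mpr ⟨⟨A, hA, hAV⟩, hzA⟩
    · have hle : A.1 ≤ V ⊓ A.1 := le_inf A.2.2 le_rfl
      have hreg := E.regular x A.1 A.2.1 (A.2.2.trans (hV.trans hx))
      have h' := congrArg (res A.2.2) ha
      rw [map_mul, map_zero, E.s.coord_res] at h'
      have h0 : res A.2.2 a = 0 := by
        first
          | exact hreg.left.mul_left_eq_zero_iff.mp h'
          | exact hreg.right.mul_right_eq_zero_iff.mp h'
      rw [map_zero]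
      have := congrArg (res (inf_le_right : V ⊓ A.1 ≤ A.1)) h0
      rwa [res_res, map_zero] at this

/-- A section all whose coordinates are regular on every open where they are defined. -/
def SecRegular {M : LineSys X} (s : M.Sec ⊤) : Prop :=
  ∀ (x : X) (W : X.Opens) (hx : W ≤ M.U x), RegularOn (s.coord x W le_top hx)

variable (p : X ⟶ T) {L M : LineSys X} (s : M.Sec ⊤)

/-- Multiplication by a global section. -/
def mulSec (L : LineSys X) (V : X.Opens) :
    SecOver p L V →ₗ[Γ(T, ⊤)] SecOver p (L.tens M) V where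
  toFun r := LineSys.Sec.mul r (s.restrict le_top)
  map_add' r r' := LineSys.Sec.ext fun x W h hx => by
    show (LineSys.Sec.coord (L := L) r x W h (hx.trans inf_le_left) +
      LineSys.Sec.coord (L := L) r' x W h (hx.trans inf_le_left)) * _ = _
    rw [add_mul]
    rfl
  map_smul' a r := LineSys.Sec.ext fun x W h hx => by
    show res h (baseHom p V a) * LineSys.Sec.coord (L := L) r x W h (hx.trans inf_le_left) * _ = _
    rw [mul_assoc]
    rfl

theorem coord_mulSec {L : LineSys X} {V : X.Opens} (r : SecOver p L V) (x : X) (W : X.Opens)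
    (h : W ≤ V) (hx : W ≤ (L.tens M).U x) :
    LineSys.Sec.coord (L := L.tens M) (mulSec p s L V r) x W h hx =
      LineSys.Sec.coord (L := L) r x W h (hx.trans inf_le_left) *
        s.coord x W le_top (hx.trans inf_le_right) := rfl

theorem secRes_mulSec {V V' : X.Opens} (h : V' ≤ V) (r : SecOver p L V) :
    secRes p (L.tens M) h (mulSec p s L V r) = mulSec p s L V' (secRes p L h r) := rfl

theorem mulSec_injective (hs : SecRegular s) (V : X.Opens) :
    Function.Injective (mulSec p s L V) := by
  refine (injective_iff_map_eq_zero _).mpr fun r hr => LineSys.Sec.ext fun x W h hx => ?_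
  refine fun_eq_of_cover (fun z => (L.tens M).U z)
    (fun z hz => Opens.mem_iSup.mpr ⟨z, (L.tens M).mem z⟩) fun z => ?_
  have hW' : W ⊓ (L.tens M).U z ≤ V := inf_le_left.trans h
  have h2 : LineSys.Sec.coord (L := L.tens M) (mulSec p s L V r) z (W ⊓ (L.tens M).U z) hW'
      inf_le_right = 0 := by rw [hr]; rfl
  rw [coord_mulSec] at h2
  have hreg := hs z (W ⊓ (L.tens M).U z) (inf_le_right.trans inf_le_right) _ le_rfl
  rw [res_self] at hreg
  have h3 := hreg.right.mul_right_eq_zero_iff.mp h2
  rw [LineSys.Sec.coord_res, LineSys.Sec.coord_g (L := L) r x z _ hW' (inf_le_left.trans hx)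
    (inf_le_right.trans inf_le_left), h3, mul_zero]
  exact (map_zero (res _)).symm

/-- A section of `L ⊗ M` whose coordinates are locally multiples of those of `s` is a multiple
of `s`. -/
theorem exists_mulSec_eq (hs : SecRegular s) {V : X.Opens} (t : SecOver p (L.tens M) V)
    (hdiv : ∀ z ∈ V, ∃ (y : X) (W : X.Opens) (h : W ≤ V) (hy : W ≤ (L.tens M).U y) (a : Γ(X, W)),
      z ∈ W ∧ LineSys.Sec.coord (L := L.tens M) t y W h hy =
        a * s.coord y W le_top (hy.trans inf_le_right)) :
    ∃ r : SecOver p L V, mulSec p s L V r = t := by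
  let Sol : ∀ (x : X) (W : X.Opens), W ≤ V → W ≤ L.U x → Γ(X, W) → Prop := fun x W h hx a =>
    ∀ (y : X) (A : X.Opens) (hA : A ≤ W) (hy : A ≤ (L.tens M).U y),
      res hA a * s.coord y A le_top (hy.trans inf_le_right) =
        (L.g x y A (hA.trans hx) (hy.trans inf_le_left) : Γ(X, A)) *
          LineSys.Sec.coord (L := L.tens M) t y A (hA.trans h) hy
  have huniq : ∀ x W h hx a b, Sol x W h hx a → Sol x W h hx b → a = b := by
    intro x W h hx a b ha hb
    refine fun_eq_of_cover (fun z => (L.tens M).U z)
      (fun z hz => Opens.mem_iSup.mpr ⟨z, (L.tens M).mem z⟩) fun z => ?_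
    have := hs z (W ⊓ (L.tens M).U z) (inf_le_right.trans inf_le_right) _ le_rfl
    rw [res_self] at this
    exact this.right ((ha z _ inf_le_left inf_le_right).trans (hb z _ inf_le_left inf_le_right).symm)
  have hex : ∀ x W (h : W ≤ V) (hx : W ≤ L.U x), ∃ a, Sol x W h hx a := by
    intro x W h hx
    choose y B hB hy c hzB hc using fun z : {z : X // z ∈ W} => hdiv z.1 (h z.2)
    have key : ∀ (z : {z : X // z ∈ W}) (y' : X) (A : X.Opens) (hA : A ≤ W ⊓ B z)
        (hy' : A ≤ (L.tens M).U y'),
        res hA ((L.g x (y z) (W ⊓ B z) (inf_le_left.trans hx)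
            (inf_le_right.trans ((hy z).trans inf_le_left)) : Γ(X, W ⊓ B z)) *
              res inf_le_right (c z)) * s.coord y' A le_top (hy'.trans inf_le_right) =
          (L.g x y' A ((hA.trans inf_le_left).trans hx) (hy'.trans inf_le_left) : Γ(X, A)) *
            LineSys.Sec.coord (L := L.tens M) t y' A ((hA.trans inf_le_left).trans h) hy' := by
      intro z y' A hA hy'
      have hAy : A ≤ (L.tens M).U (y z) := (hA.trans inf_le_right).trans (hy z)
      have e1 := congrArg (res (hA.trans inf_le_right)) (hc z)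
      rw [LineSys.Sec.coord_res, map_mul, s.coord_res,
        LineSys.Sec.coord_g t (y z) y' A ((hA.trans inf_le_left).trans h) hAy hy',
        s.coord_g (y z) y' A le_top (hAy.trans inf_le_right) (hy'.trans inf_le_right)] at e1
      have e1' : res (hA.trans inf_le_right) (c z) * s.coord y' A le_top (hy'.trans inf_le_right) =
          (L.g (y z) y' A (hAy.trans inf_le_left) (hy'.trans inf_le_left) : Γ(X, A)) *
            LineSys.Sec.coord (L := L.tens M) t y' A ((hA.trans inf_le_left).trans h) hy' := by
        refine (Units.mul_right_inj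
          (M.g (y z) y' A (hAy.trans inf_le_right) (hy'.trans inf_le_right))).mp ?_
        rw [mul_left_comm, ← e1]
        show (Units.val (_ * _)) * _ = _
        rw [Units.val_mul]
        ring
      rw [map_mul, res_res, mul_assoc, e1', ← mul_assoc,
        show res hA (L.g x (y z) (W ⊓ B z) (inf_le_left.trans hx)
            (inf_le_right.trans ((hy z).trans inf_le_left)) : Γ(X, W ⊓ B z)) = _ from
          congrArg Units.val (L.g_res x (y z) hA (inf_le_left.trans hx)
            (inf_le_right.trans ((hy z).trans inf_le_left))),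
        ← Units.val_mul, L.g_mul]
    obtain ⟨a, ha⟩ := exists_glue_inter (W := W) B
      (fun z hz => Opens.mem_iSup.mpr ⟨⟨z, hz⟩, hzB ⟨z, hz⟩⟩) _ fun z z' A hA hA' =>
        huniq x A ((hA.trans inf_le_left).trans h) ((hA.trans inf_le_left).trans hx) _ _
          (fun y' A' hA'' hy' => by rw [res_res]; exact key z y' A' _ hy')
          (fun y' A' hA'' hy' => by rw [res_res]; exact key z' y' A' _ hy')
    refine ⟨a, fun y' A hA hy' => fun_eq_of_cover B
      (fun z hz => Opens.mem_iSup.mpr ⟨⟨z, hA hz⟩, hzB ⟨z, hA hz⟩⟩) fun z => ?_⟩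
    have e2 := key z y' (A ⊓ B z) (inf_le_inf_right _ hA) (inf_le_left.trans hy')
    rw [← ha z, res_res] at e2
    rw [map_mul, map_mul, res_res, s.coord_res, LineSys.Sec.coord_res,
      show res (inf_le_left : A ⊓ B z ≤ A) (L.g x y' A _ _ : Γ(X, A)) = _ from
        congrArg Units.val (L.g_res x y' inf_le_left (hA.trans hx) (hy'.trans inf_le_left))]
    exact e2
  choose a ha using hex
  refine ⟨LineSys.Sec.mk' a ?_ ?_, LineSys.Sec.ext fun x W h hx => ?_⟩
  · intro x W W' i h hx
    exact huniq x W' (i.trans h) (i.trans hx) _ _ (fun y A hA hy => by rw [res_res]; exact ha x W h hx y A (hA.trans i) hy) (ha x W' (i.trans h) (i.trans hx))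
  · intro x y W h hx hy
    refine huniq x W h hx _ _ (ha x W h hx) fun z A hA hz => ?_
    rw [map_mul, mul_assoc, ha y W h hy z A hA hz, ← mul_assoc,
      show res hA (L.g x y W hx hy : Γ(X, W)) = _ from congrArg Units.val (L.g_res x y hA hx hy),
      ← Units.val_mul, L.g_mul]
  · rw [coord_mulSec]
    have := ha x W h (hx.trans inf_le_left) x W le_rfl hx
    rw [res_self, LineSys.g_self, Units.val_one, one_mul] at this
    exact this

end Fermat.Agent.Jacobian.FieldTheory
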