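/-
Values of sections at a rational point; sections vanishing there are multiples of its equation.
-/
import Fermat.Agent.Jacobian.FieldTheory.Division

set_option autoImplicit false
set_option linter.unusedVariables false

universe u

open CategoryTheory AlgebraicGeometry TopologicalSpace Opposite

noncomputable section

namespace Fermat.Agent.Jacobian.FieldTheory

/-- A section over a basic open of an affine open extends after multiplication by a power. -/
def SecExtend (X : Scheme.{u}) : Prop :=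
  ∀ (L : LineSys X) (V : X.Opens), IsAffineOpen V → ∀ (f : Γ(X, V)) (m : L.Sec (X.basicOpen f)),
    ∃ (j : ℕ) (m0 : L.Sec V),
      res (X.basicOpen_le f) f ^ j • m = m0.restrict (X.basicOpen_le f)

variable {X T : Scheme.{u}} (p : X ⟶ T) {σ : T ⟶ X}

/-- The frame at a point, as a section on a smaller open. -/
def frameSec (L : LineSys X) (y : X) (V : X.Opens) (hy : V ≤ L.U y) : L.Sec V :=
  LineSys.Sec.mk' (fun x W h hx => (L.g x y W hx (h.trans hy) : Γ(X, W)))
    (fun x W W' i h hx => congrArg Units.val (L.g_res x y i hx (h.trans hy)))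
    (fun x z W h hx hz => by rw [← Units.val_mul, L.g_mul])

section Point

variable [Subsingleton T] [Nonempty T] (σ)

/-- The image of a section of a one-point base. -/
def ptOf : X := σ (Classical.arbitrary T)

variable {σ}

theorem mem_iff (W : X.Opens) (τ : T) : σ τ ∈ W ↔ ptOf σ ∈ W := by
  rw [Subsingleton.elim τ (Classical.arbitrary T)]
  rfl

theorem top_le_preimage {W : X.Opens} (hq : ptOf σ ∈ W) : (⊤ : T.Opens) ≤ σ ⁻¹ᵁ W :=
  fun τ _ => (mem_iff W τ).mpr hq

theorem preimage_eq_bot {W : X.Opens} (hq : ptOf σ ∉ W) : σ ⁻¹ᵁ W = ⊥ :=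
  Opens.ext (Set.eq_empty_of_forall_notMem fun τ hτ => hq ((mem_iff W τ).mp hτ))

variable (hσ : σ ≫ p = 𝟙 T)

include hσ in
theorem appLE_baseHom {V : X.Opens} (hq : ptOf σ ∈ V) (r : Γ(T, ⊤)) :
    σ.appLE V ⊤ (top_le_preimage hq) (baseHom p V r) = r := by
  show σ.appLE V ⊤ _ (p.appLE ⊤ V _ r) = r
  rw [← ConcreteCategory.comp_apply, Scheme.Hom.appLE_comp_appLE]
  suffices H : ∀ g : T ⟶ T, g = 𝟙 T → ∀ e, g.appLE ⊤ ⊤ e r = r from H _ hσ _
  rintro g rfl e
  simp [Scheme.Hom.appLE]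

/-- The value of a section at the point, in the frame indexed by the point. -/
def evalAt (L : LineSys X) {V : X.Opens} (hq : ptOf σ ∈ V) :
    SecOver p L V →ₗ[Γ(T, ⊤)] Γ(T, ⊤) where
  toFun s := σ.appLE (V ⊓ L.U (ptOf σ)) ⊤ (top_le_preimage ⟨hq, L.mem _⟩)
    (LineSys.Sec.coord (L := L) s (ptOf σ) _ inf_le_left inf_le_right)
  map_add' s t := by
    show σ.appLE _ _ _ (_ + _) = _
    rw [map_add]
    rfl
  map_smul' r s := by
    show σ.appLE _ _ _ (res inf_le_left (baseHom p V r) * _) = r * _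
    rw [map_mul, appLE_res, appLE_baseHom p hσ hq]

variable {hσ} {L : LineSys X} {V : X.Opens}

theorem evalAt_eq_appLE (hq : ptOf σ ∈ V) (s : SecOver p L V) (W : X.Opens) (hW : W ≤ V)
    (hWq : W ≤ L.U (ptOf σ)) (hqW : ptOf σ ∈ W) :
    evalAt p hσ L hq s = σ.appLE W ⊤ (top_le_preimage hqW)
      (LineSys.Sec.coord (L := L) s (ptOf σ) W hW hWq) := by
  show σ.appLE _ _ _ _ = _
  rw [← LineSys.Sec.coord_res (L := L) s (ptOf σ) (le_inf hW hWq) inf_le_left inf_le_right,
    appLE_res]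

theorem evalAt_secRes {V' : X.Opens} (h : V' ≤ V) (hq' : ptOf σ ∈ V') (s : SecOver p L V) :
    evalAt p hσ L hq' (secRes p L h s) = evalAt p hσ L (h hq') s :=
  (evalAt_eq_appLE p (h hq') s _ (inf_le_left.trans h) inf_le_right ⟨hq', L.mem _⟩).symm

/-- The value in any frame vanishes with the value. -/
theorem app_coord_eq_zero (s : SecOver p L V) (hs : ∀ hq : ptOf σ ∈ V, evalAt p hσ L hq s = 0)
    (x : X) (W : X.Opens) (hW : W ≤ V) (hx : W ≤ L.U x) :
    σ.app W (LineSys.Sec.coord (L := L) s x W hW hx) = 0 := by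
  by_cases hq : ptOf σ ∈ W
  · have hd : W ⊓ L.U (ptOf σ) ≤ L.U (ptOf σ) := inf_le_right
    have key : σ.appLE W ⊤ (top_le_preimage hq) (LineSys.Sec.coord (L := L) s x W hW hx) = 0 := by
      rw [← appLE_res σ (inf_le_left : W ⊓ L.U (ptOf σ) ≤ W) (top_le_preimage ⟨hq, L.mem _⟩),
        LineSys.Sec.coord_res,
        LineSys.Sec.coord_g (L := L) s x (ptOf σ) _ (inf_le_left.trans hW) (inf_le_left.trans hx)
          hd, map_mul,
        ← evalAt_eq_appLE p (hσ := hσ) (hW hq) s _ (inf_le_left.trans hW) hd ⟨hq, L.mem _⟩,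
        hs (hW hq), mul_zero]
    have h2 := congrArg (res (show σ ⁻¹ᵁ W ≤ (⊤ : T.Opens) from fun _ _ => trivial)) key
    rw [map_zero, res_appLE, ← Scheme.Hom.app_eq_appLE] at h2
    exact h2
  · have := preimage_eq_bot hq
    haveI : Subsingleton Γ(T, σ ⁻¹ᵁ W) := by
      rw [this]
      exact CommRingCat.subsingleton_of_isTerminal T.sheaf.isTerminalOfEmpty
    exact Subsingleton.elim _ _

variable (E : LineDivisor σ)

theorem appLE_coord_divisor (W : X.Opens) (hW : W ≤ E.L.U (ptOf σ)) (hq : ptOf σ ∈ W) :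
    σ.appLE W ⊤ (top_le_preimage hq) (E.s.coord (ptOf σ) W le_top hW) = 0 := by
  obtain ⟨A, hA, hqA, hAW⟩ := exists_affine_nhd hq
  rw [← appLE_res σ hAW (top_le_preimage hqA), E.s.coord_res]
  have h : E.s.coord (ptOf σ) A le_top (hAW.trans hW) ∈ RingHom.ker (σ.app A).hom := by
    rw [E.ker_eq (ptOf σ) A hA (hAW.trans hW)]
    exact Ideal.mem_span_singleton_self _
  rw [RingHom.mem_ker] at h
  show (σ.app A ≫ T.presheaf.map _) _ = _
  rw [ConcreteCategory.comp_apply]
  exact (congrArg _ h).trans (map_zero _)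

theorem evalAt_mulSec (hq : ptOf σ ∈ V) (r : SecOver p L V) :
    evalAt p hσ (L.tens E.L) hq (mulSec p E.s L V r) = 0 := by
  show σ.appLE _ _ _ (_ * _) = 0
  rw [map_mul]
  convert mul_zero _ using 2
  exact appLE_coord_divisor E _ (inf_le_right.trans inf_le_right) ⟨hq, (L.tens E.L).mem _⟩

/-- Sections vanishing at the point are multiples of the equation of the point. -/
theorem mem_range_mulSec (t : SecOver p (L.tens E.L) V)
    (ht : ∀ hq : ptOf σ ∈ V, evalAt p hσ (L.tens E.L) hq t = 0) :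
    t ∈ LinearMap.range (mulSec p E.s L V) := by
  refine exists_mulSec_eq p E.s (regularOn_coord E) t fun z hz => ?_
  obtain ⟨A, hA, hzA, hAV⟩ :=
    exists_affine_nhd (U := V ⊓ (L.tens E.L).U z) ⟨hz, (L.tens E.L).mem z⟩
  have hx : A ≤ (L.tens E.L).U z := hAV.trans inf_le_right
  have hmem : LineSys.Sec.coord (L := L.tens E.L) t z A (hAV.trans inf_le_left) hx ∈
      RingHom.ker (σ.app A).hom :=
    app_coord_eq_zero p t ht z A (hAV.trans inf_le_left) hx
  rw [E.ker_eq z A hA (hx.trans inf_le_right), Ideal.mem_span_singleton'] at hmem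
  obtain ⟨a, ha⟩ := hmem
  exact ⟨z, A, hAV.trans inf_le_left, hx, a, hzA, ha.symm⟩

/-- A section on an affine open with value one. -/
theorem exists_evalAt_one (hF : IsField Γ(T, ⊤)) (hext : SecExtend X) (hV : IsAffineOpen V)
    (hq : ptOf σ ∈ V) : ∃ s : SecOver p L V, evalAt p hσ L hq s = 1 := by
  obtain ⟨f, hfU, hqf⟩ := hV.exists_basicOpen_le ⟨ptOf σ, L.mem (ptOf σ)⟩ hq
  obtain ⟨j, m0, hm0⟩ := hext L V hV f (frameSec L (ptOf σ) (X.basicOpen f) hfU)
  have hv : IsUnit (evalAt p hσ L hq m0) := by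
    rw [evalAt_eq_appLE p hq m0 (X.basicOpen f) (X.basicOpen_le f) hfU hqf]
    have h3 : LineSys.Sec.coord (L := L) m0 (ptOf σ) (X.basicOpen f) (X.basicOpen_le f) hfU =
        res (X.basicOpen_le f) f ^ j := by
      have h4 := congrArg
        (fun z : L.Sec (X.basicOpen f) => z.coord (ptOf σ) (X.basicOpen f) le_rfl hfU) hm0
      refine h4.symm.trans ?_
      show res _ (res _ f ^ j) * Units.val (L.g (ptOf σ) (ptOf σ) (X.basicOpen f) _ _) = _
      rw [LineSys.g_self, res_self, Units.val_one, mul_one]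
    rw [h3, map_pow]
    exact ((RingedSpace.isUnit_res_basicOpen _ f).map
      (σ.appLE (X.basicOpen f) ⊤ (top_le_preimage hqf)).hom).pow j
  obtain ⟨v, hv'⟩ := hv
  refine ⟨(v⁻¹ : Γ(T, ⊤)ˣ).1 • (show SecOver p L V from m0), ?_⟩
  rw [map_smul, ← hv', smul_eq_mul, Units.inv_mul]

end Point

end Fermat.Agent.Jacobian.FieldTheory
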