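/-
The points at which a section of a line system does not vanish.
-/
import Fermat.Agent.Jacobian.FieldTheory.Evaluation

set_option autoImplicit false
set_option linter.unusedVariables false

universe u

open CategoryTheory AlgebraicGeometry TopologicalSpace Opposite

noncomputable section

namespace Fermat.Agent.Jacobian.FieldTheory

variable {X T : Scheme.{u}} {L M : LineSys X}

/-- The section does not vanish at the point. -/
def GoodAt (s : L.Sec ⊤) (z : X) : Prop :=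
  z ∈ X.basicOpen (s.coord z (L.U z) le_top le_rfl)

theorem basicOpen_res_eq {U V : X.Opens} (h : V ≤ U) (f : Γ(X, U)) :
    X.basicOpen (res h f) = V ⊓ X.basicOpen f :=
  X.basicOpen_res f (homOfLE h).op

theorem basicOpen_unit_mul {U : X.Opens} (u : Γ(X, U)ˣ) (f : Γ(X, U)) :
    X.basicOpen ((u : Γ(X, U)) * f) = X.basicOpen f := by
  rw [X.basicOpen_mul, X.basicOpen_of_isUnit u.isUnit, inf_eq_right]
  exact X.basicOpen_le f

theorem goodAt_iff (s : L.Sec ⊤) {z x : X} {W : X.Opens} (hx : W ≤ L.U x) (hz : z ∈ W) :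
    GoodAt s z ↔ z ∈ X.basicOpen (s.coord x W le_top hx) := by
  have key : ∀ (A : X.Opens) (hA : A ≤ L.U z) (hA' : A ≤ W),
      X.basicOpen (s.coord z A le_top hA) = X.basicOpen (s.coord x A le_top (hA'.trans hx)) :=
    fun A hA hA' => by rw [s.coord_g z x A le_top hA (hA'.trans hx), basicOpen_unit_mul]
  have h := key (W ⊓ L.U z) inf_le_right inf_le_left
  rw [← s.coord_res z (inf_le_right : W ⊓ L.U z ≤ L.U z) le_top le_rfl,
    ← s.coord_res x (inf_le_left : W ⊓ L.U z ≤ W) le_top hx, basicOpen_res_eq,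
    basicOpen_res_eq] at h
  constructor <;> intro hg
  · have h1 : z ∈ W ⊓ L.U z ⊓ X.basicOpen (s.coord z (L.U z) le_top le_rfl) :=
      ⟨⟨hz, L.mem z⟩, hg⟩
    rw [h] at h1
    exact h1.2
  · have h1 : z ∈ W ⊓ L.U z ⊓ X.basicOpen (s.coord x W le_top hx) := ⟨⟨hz, L.mem z⟩, hg⟩
    rw [← h] at h1
    exact h1.2

theorem isOpen_goodAt (s : L.Sec ⊤) : IsOpen {z | GoodAt s z} := by
  rw [isOpen_iff_forall_mem_open]
  intro z hz
  exact ⟨X.basicOpen (s.coord z (L.U z) le_top le_rfl),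
    fun w hw => (goodAt_iff s le_rfl (X.basicOpen_le _ hw)).mpr hw, Opens.isOpen _, hz⟩

theorem goodAt_mul {s : L.Sec ⊤} {t : M.Sec ⊤} {z : X} (hs : GoodAt s z) (ht : GoodAt t z) :
    GoodAt (s.mul t) z := by
  show z ∈ X.basicOpen ((s.mul t).coord z _ le_top le_rfl)
  rw [LineSys.Sec.coord_mul, X.basicOpen_mul]
  exact ⟨(goodAt_iff s _ ((L.tens M).mem z)).mp hs, (goodAt_iff t _ ((L.tens M).mem z)).mp ht⟩

theorem goodAt_trivSec (z : X) : GoodAt (LineSys.trivSec X ⊤) z := by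
  show z ∈ X.basicOpen (1 : Γ(X, (LineSys.triv X).U z))
  rw [X.basicOpen_one]
  exact (LineSys.triv X).mem z

theorem goodAt_isImage {e : LineSys.Iso L M} {s : L.Sec ⊤} {t : M.Sec ⊤}
    (h : LineSys.Sec.IsImage e s t) (z : X) : GoodAt s z ↔ GoodAt t z := by
  have hz : z ∈ L.U z ⊓ M.U z := ⟨L.mem z, M.mem z⟩
  rw [goodAt_iff s (inf_le_left : L.U z ⊓ M.U z ≤ L.U z) hz,
    goodAt_iff t (inf_le_right : L.U z ⊓ M.U z ≤ M.U z) hz,
    h z z _ le_top inf_le_left inf_le_right, basicOpen_unit_mul]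

/-- A nonzero section is nonzero somewhere. -/
theorem exists_goodAt [IsReduced X] {s : L.Sec ⊤} (hs : s ≠ 0) : ∃ z, GoodAt s z := by
  by_contra h
  push Not at h
  refine hs (LineSys.Sec.ext fun x W hW hx => ?_)
  rw [LineSys.Sec.coord_zero, ← basicOpen_eq_bot_iff, eq_bot_iff]
  intro z hz
  exact absurd ((goodAt_iff s hx (X.basicOpen_le _ hz)).mpr hz) (h z)

theorem zero_not_goodAt (z : X) : ¬ GoodAt (0 : L.Sec ⊤) z := by
  show ¬ z ∈ X.basicOpen (0 : Γ(X, L.U z))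
  rw [X.basicOpen_zero]
  exact id

variable [Subsingleton T] [Nonempty T] {p : X ⟶ T} {σ : T ⟶ X} {hσ : σ ≫ p = 𝟙 T}

theorem evalAt_ne_zero_iff (hF : IsField Γ(T, ⊤)) (s : SecOver p L ⊤) :
    evalAt p hσ L (Opens.mem_top (ptOf σ)) s ≠ 0 ↔ GoodAt (L := L) s (ptOf σ) := by
  rw [evalAt_eq_appLE p (Opens.mem_top _) s _ le_top le_rfl (L.mem _), GoodAt]
  set f := LineSys.Sec.coord (L := L) s (ptOf σ) (L.U (ptOf σ)) le_top le_rfl
  have hb := Scheme.basicOpen_appLE σ (⊤ : T.Opens) (L.U (ptOf σ)) (top_le_preimage (L.mem _)) f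
  constructor
  · intro h
    obtain ⟨v, hv⟩ := hF.mul_inv_cancel h
    rw [T.basicOpen_of_isUnit (IsUnit.of_mul_eq_one v hv)] at hb
    exact ((SetLike.ext_iff.mp hb (Classical.arbitrary T)).mp trivial).2
  · intro h h0
    rw [h0, T.basicOpen_zero] at hb
    have h1 : Classical.arbitrary T ∈ (⊤ : T.Opens) ⊓ σ ⁻¹ᵁ X.basicOpen f := ⟨trivial, h⟩
    rw [← hb] at h1
    exact h1

/-- The section of the divisor of a point does not vanish elsewhere. -/
theorem goodAt_divisor (E : LineDivisor σ) (hcl : IsClosed ({ptOf σ} : Set X)) {z : X}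
    (hz : z ≠ ptOf σ) : GoodAt E.s z := by
  obtain ⟨A, hA, hzA, hAU⟩ := exists_affine_nhd (X := X)
    (U := ⟨{ptOf σ}ᶜ, hcl.isOpen_compl⟩ ⊓ E.L.U z) ⟨hz, E.L.mem z⟩
  have hq : ptOf σ ∉ A := fun h => (hAU h).1 rfl
  refine (goodAt_iff E.s (hAU.trans inf_le_right) hzA).mpr ?_
  haveI : Subsingleton Γ(T, σ ⁻¹ᵁ A) := by
    rw [preimage_eq_bot hq]
    exact CommRingCat.subsingleton_of_isTerminal T.sheaf.isTerminalOfEmpty
  have h1 : (1 : Γ(X, A)) ∈ RingHom.ker (σ.app A).hom := Subsingleton.elim _ _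
  rw [E.ker_eq z A hA (hAU.trans inf_le_right), Ideal.mem_span_singleton'] at h1
  obtain ⟨a, ha⟩ := h1
  rw [X.basicOpen_of_isUnit (IsUnit.of_mul_eq_one a (by rw [mul_comm]; exact ha))]
  exact hzA

end Fermat.Agent.Jacobian.FieldTheory
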