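/-
The trivial system maps onto `H¹` of any system with a nonzero section; a class with vanishing
`H¹`.
-/
import Fermat.Agent.Jacobian.FieldTheory.Algebra
import Fermat.Agent.Jacobian.FieldTheory.Complex
import Fermat.Agent.Jacobian.FieldTheory.Good
import Fermat.Agent.Jacobian.Line.Affine
import Fermat.Agent.Jacobian.Divisor.Equations

set_option autoImplicit false
set_option linter.unusedVariables false

universe u

open CategoryTheory AlgebraicGeometry TopologicalSpace Opposite Polynomial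

noncomputable section

namespace Fermat.Agent.Jacobian.FieldTheory

variable {X T : Scheme.{u}} (p : X ⟶ T) {L : LineSys X}

/-- Multiplication of functions with a global section. -/
def smulSec (s : L.Sec ⊤) (V : X.Opens) :
    SecOver p (LineSys.triv X) V →ₗ[Γ(T, ⊤)] SecOver p L V where
  toFun r := (LineSys.trivEquiv V r • s.restrict le_top : L.Sec V)
  map_add' r r' :=
    (congrArg (fun z : Γ(X, V) => z • LineSys.Sec.restrict (le_top : V ≤ ⊤) s)
      ((LineSys.trivEquiv V).map_add r r')).trans (add_smul _ _ _)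
  map_smul' a r := by
    show ((LineSys.trivEquiv V (baseHom p V a • (show (LineSys.triv X).Sec V from r))) •
      s.restrict le_top : L.Sec V) = baseHom p V a • (LineSys.trivEquiv V r • s.restrict le_top)
    rw [map_smul, smul_eq_mul, mul_smul]

theorem smulSec_secRes (s : L.Sec ⊤) {V V' : X.Opens} (h : V' ≤ V)
    (r : SecOver p (LineSys.triv X) V) :
    smulSec p s V' (secRes p _ h r) = secRes p L h (smulSec p s V r) := by
  show (LineSys.trivEquiv V' (LineSys.Sec.restrict h r) • s.restrict le_top : L.Sec V') =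
    LineSys.Sec.restrict h (LineSys.trivEquiv V r • s.restrict le_top)
  rw [LineSys.trivEquiv_restrict, LineSys.Sec.restrict_smul, LineSys.Sec.restrict_restrict]

variable {p}

theorem exists_mul_pow {V W : X.Opens} (hV : IsAffineOpen V) (f : Γ(X, V)) (hW : W = X.basicOpen f)
    (hWV : W ≤ V) (a : Γ(X, W)) :
    ∃ (n : ℕ) (b : Γ(X, V)), a * res hWV f ^ n = res hWV b := by
  subst hW
  have := hV.isLocalization_basicOpen f
  obtain ⟨n, b, hb⟩ := IsLocalization.Away.surj (S := Γ(X, X.basicOpen f)) f a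
  exact ⟨n, b, hb⟩

theorem exists_pow_smul_restrict {V W : X.Opens} (hV : IsAffineOpen V) (f : Γ(X, V))
    (hW : W = X.basicOpen f) (hWV : W ≤ V) (m : L.Sec W) :
    ∃ (n : ℕ) (m0 : L.Sec V), res hWV f ^ n • m = m0.restrict hWV := by
  subst hW
  obtain ⟨n, s, hs⟩ := LineSys.Sec.exists_extend (L := L) hV f m
  exact ⟨n, s, by rw [hs, map_pow]⟩

variable [IsIntegral X]

/-- Sections over an affine open are proportional to a nonzero global section. -/
theorem exists_proportional {V : X.Opens} (hV : IsAffineOpen V) {s : L.Sec ⊤} (hs : s ≠ 0)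
    (hVne : (V : Set X).Nonempty) (m : L.Sec V) :
    ∃ a b : Γ(X, V), a ≠ 0 ∧ a • m = b • s.restrict le_top := by
  obtain ⟨n, sv, tv, hst⟩ := LineSys.Sec.exists_dual_basis L hV
  have hs0 : s.restrict (le_top : V ≤ ⊤) ≠ 0 := fun h => hs (sec_eq_zero le_top hVne h)
  obtain ⟨i, hi⟩ : ∃ i, LineSys.Sec.pair (s.restrict (le_top : V ≤ ⊤)) (tv i) ≠ 0 := by
    by_contra h
    push Not at h
    refine hs0 ?_
    rw [← LineSys.Sec.sum_pair_smul hst (s.restrict le_top)]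
    simp [h]
  exact ⟨_, _, hi, LineSys.Sec.pair_smul_eq _ _ _⟩

/-- Algebra of the decomposition of a localised element. -/
theorem decomp_of_coprime {R S M0 M : Type u} [CommRing R] [CommRing S] [AddCommGroup M0]
    [Module R M0] [AddCommGroup M] [Module S M] (ρ : R →+* S) (r0 : M0 → M)
    (hr0 : ∀ (a : R) (z : M0), r0 (a • z) = ρ a • r0 z) {x α β h' : R} {j : ℕ}
    (hx : IsUnit (ρ x)) (hAB : α * x ^ j + β * h' = 1) {m s : M} {m0 : M0}
    (hm0 : ρ x ^ j • m = r0 m0) {w : S} (hw : ρ h' • r0 m0 = w • s) :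
    ∃ (m2 : M0) (r : S), m = r0 m2 + r • s := by
  obtain ⟨v, hv⟩ := hx.pow j
  refine ⟨α • m0, ρ β * (↑v⁻¹ * w), ?_⟩
  have h1 : ρ h' • m = ((↑v⁻¹ : S) * w) • s := by
    rw [mul_smul (↑v⁻¹ : S), ← hw, ← hm0, ← hv, ← mul_smul, ← mul_smul]
    congr 1
    calc ρ h' = ↑v⁻¹ * ↑v * ρ h' := by rw [Units.inv_mul, one_mul]
      _ = _ := by ring
  calc m = ρ (α * x ^ j + β * h') • m := by rw [hAB, map_one, one_smul]
    _ = ρ α • (ρ x ^ j • m) + ρ β • (ρ h' • m) := by
      rw [map_add, add_smul, map_mul, map_mul, map_pow, mul_smul, mul_smul]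
    _ = _ := by rw [hm0, h1, hr0, mul_smul (ρ β)]

/-- A section on the intersection is a section of the first chart plus a multiple of a given
nonzero global section. -/
theorem exists_decomp (Tc : TwoChart p) (hF : IsField Γ(T, ⊤)) {s : L.Sec ⊤} (hs : s ≠ 0)
    (hne : ((Tc.U0 ⊓ Tc.U1 : X.Opens) : Set X).Nonempty) (m : L.Sec (Tc.U0 ⊓ Tc.U1)) :
    ∃ (m2 : L.Sec Tc.U0) (r : Γ(X, Tc.U0 ⊓ Tc.U1)),
      m = m2.restrict inf_le_left + r • s.restrict le_top := by
  letI : Field Γ(T, ⊤) := hF.toField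
  have hne0 : (Tc.U0 : Set X).Nonempty := hne.mono Set.inter_subset_left
  haveI : Nonempty Tc.U0 := hne0.to_subtype
  obtain ⟨j, m0, hm0⟩ := exists_pow_smul_restrict (L := L) Tc.isAffine0 Tc.x Tc.inter0
    inf_le_left m
  obtain ⟨a, b, ha, hab⟩ := exists_proportional Tc.isAffine0 hs hne0 m0
  let φ : Γ(T, ⊤)[X] →+* Γ(X, Tc.U0) := eval₂RingHom (baseHom p Tc.U0) Tc.x
  have hfin : φ.Finite := by
    obtain ⟨n, v, hv⟩ := Tc.free0
    letI := φ.toAlgebra
    classical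
    refine RingHom.finite_algebraMap.mpr ⟨⟨Finset.univ.image v, ?_⟩⟩
    rw [Finset.coe_image, Finset.coe_univ, Set.image_univ, eq_top_iff]
    intro z _
    obtain ⟨q, hq⟩ := hv.2 z
    refine (Submodule.mem_span_range_iff_exists_fun _).mpr ⟨q, ?_⟩
    rw [← hq]
    exact Finset.sum_congr rfl fun i _ => Algebra.smul_def _ _
  obtain ⟨h, hh0, hdvd⟩ := exists_poly_dvd φ hfin ha
  obtain ⟨c, hc⟩ := hdvd
  obtain ⟨i, h', hh', hh'0⟩ : ∃ (i : ℕ) (h' : Γ(T, ⊤)[X]),
      h = Polynomial.X ^ i * h' ∧ h'.coeff 0 ≠ 0 := by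
    obtain ⟨h', e, hnd⟩ := Polynomial.exists_eq_pow_rootMultiplicity_mul_and_not_dvd h hh0 0
    rw [map_zero, sub_zero] at e hnd
    exact ⟨_, h', e, fun h => hnd (X_dvd_iff.mpr h)⟩
  obtain ⟨A, B, hAB⟩ : IsCoprime ((Polynomial.X : Γ(T, ⊤)[X]) ^ j) h' :=
    (((Polynomial.irreducible_X).coprime_iff_not_dvd).mpr fun hd =>
      hh'0 (X_dvd_iff.mp hd)).pow_left
  have hxu : IsUnit (res (inf_le_left : Tc.U0 ⊓ Tc.U1 ≤ Tc.U0) Tc.x) :=
    IsUnit.of_mul_eq_one _ Tc.x_mul_y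
  have hφX : φ Polynomial.X = Tc.x := eval₂_X _ _
  obtain ⟨u, hu⟩ := hxu.pow i
  refine decomp_of_coprime (M0 := L.Sec Tc.U0) (M := L.Sec (Tc.U0 ⊓ Tc.U1))
    (res (inf_le_left : Tc.U0 ⊓ Tc.U1 ≤ Tc.U0)) (LineSys.Sec.restrict inf_le_left)
    (fun a z => LineSys.Sec.restrict_smul _ a z) (x := Tc.x) (α := φ A) (β := φ B) (h' := φ h')
    (j := j) hxu ?_ hm0 (w := (↑u⁻¹ : Γ(X, Tc.U0 ⊓ Tc.U1)) * res inf_le_left (c * b)) ?_
  · have := congrArg φ hAB
    simpa only [map_add, map_mul, map_pow, map_one, hφX] using this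
  · have e1 := congrArg (fun z : L.Sec Tc.U0 =>
      LineSys.Sec.restrict (inf_le_left : Tc.U0 ⊓ Tc.U1 ≤ Tc.U0) (c • z)) hab
    simp only [← mul_smul, LineSys.Sec.restrict_smul, LineSys.Sec.restrict_restrict] at e1
    rw [mul_comm c a, ← hc, hh', map_mul, map_pow, hφX, map_mul, map_pow, ← hu, mul_smul] at e1
    rw [mul_smul, ← e1, ← mul_smul (↑u⁻¹ : Γ(X, Tc.U0 ⊓ Tc.U1)), Units.inv_mul, one_smul]

/-- A system with a nonzero section has no bigger `H¹` than the trivial one. -/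
theorem h1_le_triv (Tc : TwoChart p) (hF : IsField Γ(T, ⊤)) {s : L.Sec ⊤} (hs : s ≠ 0)
    [Module.Finite Γ(T, ⊤) (CechH1 p (LineSys.triv X) Tc.U0 Tc.U1)] :
    Module.finrank Γ(T, ⊤) (CechH1 p L Tc.U0 Tc.U1) ≤
      Module.finrank Γ(T, ⊤) (CechH1 p (LineSys.triv X) Tc.U0 Tc.U1) := by
  letI : Field Γ(T, ⊤) := hF.toField
  let ψ : CechH1 p (LineSys.triv X) Tc.U0 Tc.U1 →ₗ[Γ(T, ⊤)] CechH1 p L Tc.U0 Tc.U1 :=
    Submodule.mapQ _ _ (smulSec p s (Tc.U0 ⊓ Tc.U1)) (by
      rintro _ ⟨a, rfl⟩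
      refine ⟨(smulSec p s Tc.U0 a.1, smulSec p s Tc.U1 a.2), ?_⟩
      rw [cechD_apply, cechD_apply, map_sub, smulSec_secRes, smulSec_secRes])
  refine LinearMap.finrank_le_finrank_of_surjective (f := ψ) ?_
  intro y
  obtain ⟨m, rfl⟩ := Submodule.Quotient.mk_surjective _ y
  rcases ((Tc.U0 ⊓ Tc.U1 : X.Opens) : Set X).eq_empty_or_nonempty with he | hne
  · refine ⟨0, ?_⟩
    rw [map_zero]
    refine ((Submodule.Quotient.mk_eq_zero _).mpr ?_).symm
    have hm : m = 0 := LineSys.Sec.ext fun x W hW hx => by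
      have : W = ⊥ := Opens.ext (Set.eq_empty_of_subset_empty (he ▸ hW))
      subst this
      haveI : Subsingleton Γ(X, (⊥ : X.Opens)) :=
        CommRingCat.subsingleton_of_isTerminal X.sheaf.isTerminalOfEmpty
      exact Subsingleton.elim _ _
    exact hm ▸ zero_mem _
  obtain ⟨m2, r, e3⟩ := exists_decomp Tc hF hs hne m
  refine ⟨Submodule.Quotient.mk ((LineSys.trivEquiv (Tc.U0 ⊓ Tc.U1)).symm r), ?_⟩
  rw [Submodule.mapQ_apply, Submodule.Quotient.eq]
  refine ⟨(-(show SecOver p L Tc.U0 from m2), 0), ?_⟩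
  rw [cechD_apply, map_neg, map_zero, sub_zero]
  show -(LineSys.Sec.restrict inf_le_left m2) =
    (LineSys.trivEquiv _ ((LineSys.trivEquiv (Tc.U0 ⊓ Tc.U1)).symm r) • s.restrict le_top :
      L.Sec (Tc.U0 ⊓ Tc.U1)) - (show L.Sec (Tc.U0 ⊓ Tc.U1) from m)
  rw [LinearEquiv.apply_symm_apply]
  rw [show (show L.Sec (Tc.U0 ⊓ Tc.U1) from m) = _ from e3]
  abel

end Fermat.Agent.Jacobian.FieldTheory
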