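/-
A class whose `H¹` vanishes: twist by a high power of the second coordinate.
-/
import Fermat.Agent.Jacobian.FieldTheory.Unit
import Fermat.Agent.Jacobian.Cohom.Fibres

set_option autoImplicit false
set_option linter.unusedVariables false

universe u

open CategoryTheory AlgebraicGeometry TopologicalSpace Opposite

noncomputable section

namespace Fermat.Agent.Jacobian.FieldTheory

variable {X T : Scheme.{u}} {p : X ⟶ T} [IsIntegral X]

theorem regularOn_of_isReduced_ne_zero {U : X.Opens} {f : Γ(X, U)}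
    (hf : X.basicOpen f ≠ ⊥) : RegularOn f := by
  intro V hV
  rcases (V : Set X).eq_empty_or_nonempty with he | hne
  · have : V = ⊥ := Opens.ext he
    subst this
    haveI : Subsingleton Γ(X, (⊥ : X.Opens)) :=
      CommRingCat.subsingleton_of_isTerminal X.sheaf.isTerminalOfEmpty
    exact ⟨fun _ _ _ => Subsingleton.elim _ _, fun _ _ _ => Subsingleton.elim _ _⟩
  · haveI : Nonempty V := hne.to_subtype
    refine isRegular_of_ne_zero fun h => hf ?_
    have := inter_nonempty (V := X.basicOpen f) hne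
    by_contra h'
    obtain ⟨z, hz⟩ := this ((Opens.ne_bot_iff_nonempty _).mp h')
    have h1 : z ∈ X.basicOpen (res hV f) := by
      rw [basicOpen_res_eq]
      exact hz
    rw [h, X.basicOpen_zero] at h1
    exact h1

open Classical in
/-- The local equations: a power of `y` on the second chart, one elsewhere. -/
def killEquations (Tc : TwoChart p) (i : ℕ)
    (hne : ((Tc.U0 ⊓ Tc.U1 : X.Opens) : Set X).Nonempty) : Equations X where
  U q := if q ∈ Tc.U1 then Tc.U1 else Tc.U0
  mem q := by
    by_cases h : q ∈ Tc.U1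
    · rw [if_pos h]; exact h
    · rw [if_neg h]
      have : q ∈ Tc.U0 ⊔ Tc.U1 := by rw [Tc.cover]; trivial
      exact this.resolve_right h
  f q := if h : q ∈ Tc.U1 then res (by rw [if_pos h]) (Tc.y ^ i) else 1
  regular q := by
    by_cases h : q ∈ Tc.U1
    · rw [dif_pos h]
      refine RegularOn.res (regularOn_of_isReduced_ne_zero fun h0 => ?_) _
      rcases Nat.eq_zero_or_pos i with rfl | hi
      · rw [pow_zero, X.basicOpen_one] at h0
        rw [h0, inf_bot_eq] at hne
        exact Set.not_nonempty_empty hne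
      · rw [X.basicOpen_pow Tc.y hi, ← Tc.inter1] at h0
        rw [h0] at hne
        exact Set.not_nonempty_empty hne
    · rw [dif_neg h]
      intro V hV
      rw [map_one]
      exact isRegular_one
  assoc a b := by
    have key : ∀ {A : X.Opens} (h0 : A ≤ Tc.U0) (h1 : A ≤ Tc.U1),
        IsUnit (res h1 (Tc.y ^ i)) := fun h0 h1 => by
      rw [map_pow]
      refine IsUnit.pow i ?_
      have := congrArg (res (le_inf h0 h1)) Tc.x_mul_y
      rw [map_mul, map_one, res_res, res_res] at this
      exact IsUnit.of_mul_eq_one _ (by rw [mul_comm]; exact this)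
    by_cases ha : a ∈ Tc.U1 <;> by_cases hb : b ∈ Tc.U1
    · rw [dif_pos ha, dif_pos hb, res_res, res_res]
    · rw [dif_pos ha, dif_neg hb, res_res, map_one]
      exact (associated_one_iff_isUnit.mpr (key (inf_le_right.trans (by rw [if_neg hb]))
        (inf_le_left.trans (by rw [if_pos ha])))).symm
    · rw [dif_pos hb, dif_neg ha, res_res, map_one]
      exact associated_one_iff_isUnit.mpr (key (inf_le_left.trans (by rw [if_neg ha]))
        (inf_le_right.trans (by rw [if_pos hb])))
    · rw [dif_neg ha, dif_neg hb, map_one, map_one]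

open Classical in
/-- The canonical section is `y ^ i` times a frame on the second chart. -/
theorem exists_frame_kill (Tc : TwoChart p) (i : ℕ)
    (hne : ((Tc.U0 ⊓ Tc.U1 : X.Opens) : Set X).Nonempty) :
    ∃ e1 : (killEquations Tc i hne).line.Sec Tc.U1,
      (killEquations Tc i hne).one.restrict le_top = Tc.y ^ i • e1 := by
  obtain ⟨q1, hq1⟩ : ∃ q1, q1 ∈ Tc.U1 := hne.mono Set.inter_subset_right
  set E := killEquations Tc i hne
  have hU : Tc.U1 ≤ E.U q1 := by
    show Tc.U1 ≤ if q1 ∈ Tc.U1 then Tc.U1 else Tc.U0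
    rw [if_pos hq1]
  refine ⟨frameSec E.line q1 Tc.U1 hU, LineSys.Sec.ext fun x W hW hx => ?_⟩
  show res hx (E.f x) = res hW (Tc.y ^ i) * (E.ratio x q1 W hx (hW.trans hU) : Γ(X, W))
  refine (E.ratio_spec x q1 W hx (hW.trans hU)).trans ?_
  rw [mul_comm]
  congr 1
  show res _ (if h : q1 ∈ Tc.U1 then _ else _) = _
  rw [dif_pos hq1]
  exact res_res _ _ _

/-- A function on the intersection, times a high power of `y`, is regular on the second chart. -/
theorem exists_h1_eq_zero (Tc : TwoChart p) [IsAffine T]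
    [Module.Finite Γ(T, ⊤) (CechH1 p (LineSys.triv X) Tc.U0 Tc.U1)] (hF : IsField Γ(T, ⊤)) :
    ∃ N : LineSys X, Module.finrank Γ(T, ⊤) (CechH1 p N Tc.U0 Tc.U1) = 0 := by
  rcases ((Tc.U0 ⊓ Tc.U1 : X.Opens) : Set X).eq_empty_or_nonempty with he | hne
  · refine ⟨LineSys.triv X, ?_⟩
    haveI : Subsingleton (SecOver p (LineSys.triv X) (Tc.U0 ⊓ Tc.U1)) :=
      ⟨fun a b => LineSys.Sec.ext fun x W hW hx => by
        have : W = ⊥ := Opens.ext (Set.eq_empty_of_subset_empty (he ▸ hW))
        subst this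
        haveI : Subsingleton Γ(X, (⊥ : X.Opens)) :=
          CommRingCat.subsingleton_of_isTerminal X.sheaf.isTerminalOfEmpty
        exact Subsingleton.elim _ _⟩
    haveI : Subsingleton (CechH1 p (LineSys.triv X) Tc.U0 Tc.U1) :=
      (Submodule.Quotient.mk_surjective _).subsingleton
    letI : Field Γ(T, ⊤) := hF.toField
    exact Module.finrank_zero_of_subsingleton
  let V := Tc.U0 ⊓ Tc.U1
  letI : Field Γ(T, ⊤) := hF.toField
  obtain ⟨G, hG⟩ := Module.Finite.fg_top (R := Γ(T, ⊤))
    (M := CechH1 p (LineSys.triv X) Tc.U0 Tc.U1)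
  have hrep : ∀ z : CechH1 p (LineSys.triv X) Tc.U0 Tc.U1, ∃ (j : ℕ) (a : Γ(X, V))
      (a1 : Γ(X, Tc.U1)), Submodule.Quotient.mk
        (show SecOver p (LineSys.triv X) V from (LineSys.trivEquiv V).symm a) = z ∧
        a * res inf_le_right Tc.y ^ j = res inf_le_right a1 := by
    intro z
    obtain ⟨r, rfl⟩ := Submodule.Quotient.mk_surjective _ z
    obtain ⟨j, a1, h⟩ := exists_mul_pow Tc.isAffine1 Tc.y Tc.inter1 inf_le_right
      (LineSys.trivEquiv V r)
    exact ⟨j, _, a1, congrArg _ (LinearEquiv.symm_apply_apply _ _), h⟩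
  choose j a a1 ha haj using hrep
  set i := G.sup j
  set E := killEquations Tc i hne
  obtain ⟨e1, he1⟩ : ∃ e1 : E.line.Sec Tc.U1, E.one.restrict le_top = Tc.y ^ i • e1 :=
    exists_frame_kill Tc i hne
  let ψ : CechH1 p (LineSys.triv X) Tc.U0 Tc.U1 →ₗ[Γ(T, ⊤)] CechH1 p E.line Tc.U0 Tc.U1 :=
    Submodule.mapQ _ _ (smulSec p E.one V) (by
      rintro _ ⟨b, rfl⟩
      refine ⟨(smulSec p E.one Tc.U0 b.1, smulSec p E.one Tc.U1 b.2), ?_⟩
      rw [cechD_apply, cechD_apply, map_sub, smulSec_secRes, smulSec_secRes])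
  have hone : E.one ≠ 0 := fun h => by
    obtain ⟨q, hq⟩ := hne
    have hr : RegularOn (E.one.coord q (E.U q) le_top le_rfl) := by
      rw [Equations.coord_one]
      exact (E.regular q).res _
    have h' := hr (E.U q) le_rfl
    rw [h, res_self, LineSys.Sec.coord_zero] at h'
    haveI : Nonempty (E.U q) := ⟨⟨q, E.mem q⟩⟩
    exact h'.ne_zero rfl
  have hψ : ψ = 0 := by
    refine LinearMap.ext_on hG fun z hz => ?_
    rw [LinearMap.zero_apply, ← ha z, Submodule.mapQ_apply, Submodule.Quotient.mk_eq_zero]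
    have hji : j z ≤ i := Finset.le_sup (Finset.mem_coe.mp hz)
    refine ⟨(0, -(show SecOver p E.line Tc.U1 from (a1 z * Tc.y ^ (i - j z)) • e1)), ?_⟩
    rw [cechD_apply, map_neg, map_zero, zero_sub, neg_neg]
    show LineSys.Sec.restrict inf_le_right ((a1 z * Tc.y ^ (i - j z)) • e1) =
      (LineSys.trivEquiv V ((LineSys.trivEquiv V).symm (a z)) • E.one.restrict le_top :
        E.line.Sec V)
    rw [LinearEquiv.apply_symm_apply, LineSys.Sec.restrict_smul, map_mul, ← haj z, map_pow,
      mul_assoc, ← pow_add, Nat.add_sub_cancel' hji, mul_smul, ← map_pow,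
      ← LineSys.Sec.restrict_smul]
    exact congrArg (fun t => a z • t) ((congrArg (LineSys.Sec.restrict
      (inf_le_right : V ≤ Tc.U1)) he1).symm.trans (LineSys.Sec.restrict_restrict _ _ _))
  refine ⟨E.line, ?_⟩
  have h := h1_le_triv (L := E.line) Tc hF hone
  have hsurj : Function.Surjective ψ := by
    intro y
    obtain ⟨m, rfl⟩ := Submodule.Quotient.mk_surjective _ y
    obtain ⟨m2, r, e3⟩ := exists_decomp Tc hF hone hne m
    refine ⟨Submodule.Quotient.mk ((LineSys.trivEquiv V).symm r), ?_⟩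
    rw [Submodule.mapQ_apply, Submodule.Quotient.eq]
    refine ⟨(-(show SecOver p E.line Tc.U0 from m2), 0), ?_⟩
    rw [cechD_apply, map_neg, map_zero, sub_zero]
    show -(LineSys.Sec.restrict inf_le_left m2) =
      (LineSys.trivEquiv _ ((LineSys.trivEquiv V).symm r) • E.one.restrict le_top :
        E.line.Sec V) - (show E.line.Sec V from m)
    rw [LinearEquiv.apply_symm_apply, show (show E.line.Sec V from m) = _ from e3]
    abel
  haveI : Subsingleton (CechH1 p E.line Tc.U0 Tc.U1) := ⟨fun y y' => by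
    obtain ⟨z, rfl⟩ := hsurj y
    obtain ⟨z', rfl⟩ := hsurj y'
    rw [hψ, LinearMap.zero_apply, LinearMap.zero_apply]⟩
  exact Module.finrank_zero_of_subsingleton

end Fermat.Agent.Jacobian.FieldTheory
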