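/-
Multiplication by the equation of a rational point: the effect on the two term complex.
-/
import Fermat.Agent.Jacobian.FieldTheory.Algebra
import Fermat.Agent.Jacobian.FieldTheory.Complex
import Fermat.Agent.Jacobian.FieldTheory.Evaluation
import Fermat.Agent.Jacobian.Line.Affine

set_option autoImplicit false
set_option linter.unusedVariables false

universe u

open CategoryTheory AlgebraicGeometry TopologicalSpace Opposite

noncomputable section

namespace Fermat.Agent.Jacobian.FieldTheory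

variable {X T : Scheme.{u}}

theorem secExtend (X : Scheme.{u}) : SecExtend X := fun L V hV f m => by
  obtain ⟨n, s, hs⟩ := LineSys.Sec.exists_extend (L := L) hV f m
  exact ⟨n, s, by rw [hs, map_pow]⟩

variable [Subsingleton T] [Nonempty T] (p : X ⟶ T) {σ : T ⟶ X} (hσ : σ ≫ p = 𝟙 T)
  (E : LineDivisor σ) (L : LineSys X)

theorem evalAt_secRes_eq {V W : X.Opens} (h : W ≤ V) (hq : ptOf σ ∈ W) (hq' : ptOf σ ∈ V)
    (s : SecOver p L V) :
    evalAt p hσ L hq (secRes p L h s) = evalAt p hσ L hq' s :=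
  evalAt_secRes p h hq s

include hσ in
/-- The effect of a point on the Euler characteristic. -/
theorem step_finrank (hF : IsField Γ(T, ⊤)) (U0 U1 : X.Opens) (hU0 : IsAffineOpen U0)
    (hU1 : IsAffineOpen U1) (hcov : U0 ⊔ U1 = ⊤)
    (hfin0 : Module.Finite Γ(T, ⊤) (SecOver p (L.tens E.L) ⊤))
    (hfin1 : Module.Finite Γ(T, ⊤) (CechH1 p L U0 U1)) :
    let l0 := fun M : LineSys X => Module.finrank Γ(T, ⊤) (SecOver p M ⊤)
    let l1 := fun M : LineSys X => Module.finrank Γ(T, ⊤) (CechH1 p M U0 U1)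
    (l0 L ≤ l0 (L.tens E.L)) ∧ (l1 (L.tens E.L) ≤ l1 L) ∧
      ((l0 (L.tens E.L) : ℤ) - l1 (L.tens E.L) = l0 L - l1 L + 1) ∧
      ((∃ s, evalAt p hσ (L.tens E.L) (Opens.mem_top (ptOf σ)) s ≠ 0) →
        l0 (L.tens E.L) = l0 L + 1) ∧
      ((∀ s, evalAt p hσ (L.tens E.L) (Opens.mem_top (ptOf σ)) s = 0) →
        l0 (L.tens E.L) = l0 L) := by
  letI : Field Γ(T, ⊤) := hF.toField
  intro l0 l1
  set M := L.tens E.L with hM
  have hone : ∀ V : X.Opens, IsAffineOpen V → ∀ hq : ptOf σ ∈ V, ∃ s : SecOver p M V,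
      evalAt p hσ M hq s = 1 := fun V hV hq => exists_evalAt_one p hF (secExtend X) hV hq
  have hdiv : ∀ {V : X.Opens} (t : SecOver p M V),
      (∀ hq : ptOf σ ∈ V, evalAt p hσ M hq t = 0) → t ∈ LinearMap.range (mulSec p E.s L V) :=
    fun t ht => mem_range_mulSec p E t ht
  have hzero : ∀ {V : X.Opens} (t : SecOver p M V), t ∈ LinearMap.range (mulSec p E.s L V) →
      ∀ hq : ptOf σ ∈ V, evalAt p hσ M hq t = 0 := by
    rintro V _ ⟨r, rfl⟩ hq
    exact evalAt_mulSec p E hq r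
  let f := (mulSec p E.s L U0).prodMap (mulSec p E.s L U1)
  let g := mulSec p E.s L (U0 ⊓ U1)
  have hinj := fun V => mulSec_injective p E.s (regularOn_coord E) (L := L) V
  have comm : ∀ a, cechD p M U0 U1 (f a) = g (cechD p L U0 U1 a) := fun a => by
    rw [cechD_apply, cechD_apply, map_sub]
    rfl
  have hq01 : ptOf σ ∈ U0 ∨ ptOf σ ∈ U1 := by
    have : ptOf σ ∈ U0 ⊔ U1 := by rw [hcov]; trivial
    exact this
  -- the value on pairs
  classical
  let ev : SecOver p M U0 × SecOver p M U1 →ₗ[Γ(T, ⊤)] Γ(T, ⊤) :=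
    if h : ptOf σ ∈ U0 then (evalAt p hσ M h).comp (LinearMap.fst _ _ _)
    else (evalAt p hσ M (hq01.resolve_left h)).comp (LinearMap.snd _ _ _)
  have hev0 : ∀ (h : ptOf σ ∈ U0) a, ev a = evalAt p hσ M h a.1 := fun h a => by
    simp only [ev, dif_pos h]; rfl
  have hev1 : ∀ (h : ptOf σ ∉ U0) a, ev a = evalAt p hσ M (hq01.resolve_left h) a.2 :=
    fun h a => by simp only [ev, dif_neg h]; rfl
  have hdq : ∀ a (hq : ptOf σ ∈ U0 ⊓ U1), evalAt p hσ M hq (cechD p M U0 U1 a) =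
      evalAt p hσ M hq.1 a.1 - evalAt p hσ M hq.2 a.2 := fun a hq => by
    rw [cechD_apply, map_sub, evalAt_secRes_eq p hσ M _ hq hq.1,
      evalAt_secRes_eq p hσ M _ hq hq.2]
  haveI : Module.Finite Γ(T, ⊤) (LinearMap.ker (cechD p M U0 U1)) :=
    Module.Finite.equiv (LinearEquiv.ofBijective _ (toKer_bijective p M U0 U1 hcov))
  have key := complex_step (cechD p L U0 U1) (cechD p M U0 U1) f g ev comm
    ((hinj U0).prodMap (hinj U1)) (hinj _) ?_ ?_ ?_ ?_
  · obtain ⟨k1, k2, k3, k4, k5⟩ := key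
    simp only [l0, l1, finrank_sec_top p _ U0 U1 hcov]
    refine ⟨k1, k2, k3, fun ⟨s, hs⟩ => k4 ?_, fun h => k5 ?_⟩
    · refine ⟨_, (toKer p M U0 U1 s).2, fun h0 => hs ?_⟩
      by_cases h : ptOf σ ∈ U0
      · rw [hev0 h] at h0
        exact (evalAt_secRes_eq p hσ M le_top h (Opens.mem_top _) s).symm.trans h0
      · rw [hev1 h] at h0
        exact (evalAt_secRes_eq p hσ M le_top _ (Opens.mem_top _) s).symm.trans h0
    · intro a ha
      obtain ⟨s, hs⟩ := (toKer_bijective p M U0 U1 hcov).2 ⟨a, ha⟩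
      obtain rfl : (toKer p M U0 U1 s : SecOver p M U0 × SecOver p M U1) = a :=
        congrArg Subtype.val hs
      by_cases h' : ptOf σ ∈ U0
      · rw [hev0 h']
        exact (evalAt_secRes_eq p hσ M le_top h' (Opens.mem_top _) s).trans (h s)
      · rw [hev1 h']
        exact (evalAt_secRes_eq p hσ M le_top _ (Opens.mem_top _) s).trans (h s)
  · -- surjectivity on `H¹`
    intro b
    by_cases hq : ptOf σ ∈ U0 ⊓ U1
    · obtain ⟨s, hs⟩ := hone U0 hU0 hq.1
      refine ⟨(evalAt p hσ M hq b • s, 0), hdiv _ fun hq' => ?_⟩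
      rw [map_sub, hdq, map_smul, map_zero, sub_zero, hs, smul_eq_mul, mul_one, sub_self]
    · exact ⟨0, hdiv _ fun hq' => absurd hq' hq⟩
  · -- pairs with value zero
    intro a ha h0
    have e1 : ∀ hq : ptOf σ ∈ U0 ⊓ U1,
        evalAt p hσ M hq.1 a.1 = evalAt p hσ M hq.2 a.2 := fun hq => by
      have := hzero _ ha hq
      rwa [hdq, sub_eq_zero] at this
    obtain ⟨r0, hr0⟩ := hdiv a.1 fun hq => by rw [← hev0 hq]; exact h0
    obtain ⟨r1, hr1⟩ := hdiv a.2 fun hq => by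
      by_cases h : ptOf σ ∈ U0
      · rw [← e1 ⟨h, hq⟩, ← hev0 h]; exact h0
      · rw [← hev1 h]; exact h0
    exact ⟨(r0, r1), Prod.ext hr0 hr1⟩
  · intro a
    by_cases h : ptOf σ ∈ U0
    · rw [hev0 h]; exact evalAt_mulSec p E h a.1
    · rw [hev1 h]; exact evalAt_mulSec p E _ a.2
  · -- a pair with value one
    have hsec : ∀ (V : X.Opens), IsAffineOpen V → ∃ s : SecOver p M V,
        ∀ hq : ptOf σ ∈ V, evalAt p hσ M hq s = 1 := fun V hV => by
      by_cases hq : ptOf σ ∈ V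
      · obtain ⟨s, hs⟩ := hone V hV hq
        exact ⟨s, fun _ => hs⟩
      · exact ⟨0, fun h => absurd h hq⟩
    obtain ⟨s0, hs0⟩ := hsec U0 hU0
    obtain ⟨s1, hs1⟩ := hsec U1 hU1
    refine ⟨(s0, s1), hdiv _ fun hq => ?_, ?_⟩
    · rw [hdq, hs0, hs1, sub_self]
    · by_cases h : ptOf σ ∈ U0
      · rw [hev0 h]; exact hs0 h
      · rw [hev1 h]; exact hs1 _

end Fermat.Agent.Jacobian.FieldTheory
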