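/-
The numerical theory of classes on a curve over a field with enough rational points, with an
abstract supply of point classes.
-/
import Fermat.Agent.Jacobian.FieldTheory.Step
import Fermat.Agent.Jacobian.FieldTheory.Kill
import Fermat.Agent.Jacobian.FieldTheory.Good

set_option autoImplicit false
set_option linter.unusedVariables false

universe u

open CategoryTheory AlgebraicGeometry TopologicalSpace Opposite

noncomputable section

namespace Fermat.Agent.Jacobian.FieldTheory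

variable {X T : Scheme.{u}}

/-- Some representative has a section not vanishing at the point. -/
def Moves (a : LinePic X) (z : X) : Prop :=
  ∃ L : LineSys X, LinePic.mk L = a ∧ ∃ s : L.Sec ⊤, GoodAt s z

theorem exists_goodAt_of_moves {L : LineSys X} {z : X} (h : Moves (LinePic.mk L) z) :
    ∃ s : L.Sec ⊤, GoodAt s z := by
  obtain ⟨L', hL', s, hs⟩ := h
  exact ⟨_, (goodAt_isImage (LineSys.Iso.isImage_secMap (LinePic.mk_eq_mk.mp hL').some s) z).mp hs⟩

theorem Moves.mul {a b : LinePic X} {z : X} (ha : Moves a z) (hb : Moves b z) :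
    Moves (a * b) z := by
  obtain ⟨L, rfl, s, hs⟩ := ha
  obtain ⟨M, rfl, t, ht⟩ := hb
  exact ⟨L.tens M, rfl, LineSys.Sec.mul s t, goodAt_mul hs ht⟩

theorem moves_one (z : X) : Moves (1 : LinePic X) z :=
  ⟨LineSys.triv X, rfl, LineSys.trivSec X ⊤, goodAt_trivSec z⟩

/-- A scheme over a field with charts, rational points and their classes. -/
structure CurveCtx (p : X ⟶ T) : Type u where
  Tc : TwoChart p
  isField : IsField Γ(T, ⊤)
  finite0 : ∀ L : LineSys X, Module.Finite Γ(T, ⊤) (SecOver p L ⊤)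
  finite1 : ∀ L : LineSys X, Module.Finite Γ(T, ⊤) (CechH1 p L Tc.U0 Tc.U1)
  π : {σ : T ⟶ X // σ ≫ p = 𝟙 T} → LinePic X
  divisor : ∀ σ, ∃ E : LineDivisor σ.1, E.cls = π σ
  closed_pt : ∀ [Subsingleton T] [Nonempty T] (σ : {σ : T ⟶ X // σ ≫ p = 𝟙 T}),
    IsClosed ({ptOf σ.1} : Set X)
  exists_pt : ∀ [Subsingleton T] [Nonempty T] (Z : Set X), IsClosed Z → Z.Nonempty →
    ∃ σ : {σ : T ⟶ X // σ ≫ p = 𝟙 T}, ptOf σ.1 ∈ Z

namespace CurveCtx

variable {p : X ⟶ T} (C : CurveCtx p)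

/-- The Euler characteristic. -/
def χ (a : LinePic X) : ℤ := chi p C.Tc.U0 C.Tc.U1 a

/-- The dimension of `H¹`. -/
def l1 (a : LinePic X) : ℕ := h1 p C.Tc.U0 C.Tc.U1 a

theorem χ_def (a : LinePic X) : C.χ a = (h0 p a : ℤ) - C.l1 a := rfl

/-- The class of a list of points. -/
def cls (P : List {σ : T ⟶ X // σ ≫ p = 𝟙 T}) : LinePic X := (P.map C.π).prod

theorem cls_cons (σ : {σ : T ⟶ X // σ ≫ p = 𝟙 T}) (P : List {σ : T ⟶ X // σ ≫ p = 𝟙 T}) :
    C.cls (σ :: P) = C.π σ * C.cls P := by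
  simp [cls]

theorem cls_nil : C.cls [] = 1 := rfl

theorem cls_append (P Q : List {σ : T ⟶ X // σ ≫ p = 𝟙 T}) :
    C.cls (P ++ Q) = C.cls P * C.cls Q := by
  simp [cls]

variable [Subsingleton T] [Nonempty T]

/-- The effect of multiplying by a point. -/
theorem step (a : LinePic X) (σ : {σ : T ⟶ X // σ ≫ p = 𝟙 T}) :
    h0 p a ≤ h0 p (a * C.π σ) ∧ C.l1 (a * C.π σ) ≤ C.l1 a ∧
      C.χ (a * C.π σ) = C.χ a + 1 ∧
      (Moves (a * C.π σ) (ptOf σ.1) → h0 p (a * C.π σ) = h0 p a + 1) ∧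
      (¬ Moves (a * C.π σ) (ptOf σ.1) → h0 p (a * C.π σ) = h0 p a) := by
  obtain ⟨E, hE⟩ := C.divisor σ
  obtain ⟨L, rfl⟩ := LinePic.mk_surjective a
  rw [← hE, LineDivisor.cls, LinePic.mk_mul]
  obtain ⟨s1, s2, s3, s4, s5⟩ := step_finrank p σ.2 E L C.isField C.Tc.U0 C.Tc.U1
    C.Tc.isAffine0 C.Tc.isAffine1 C.Tc.cover (C.finite0 _) (C.finite1 _)
  simp only [χ, l1, chi_mk, h0_mk, h1_mk]
  refine ⟨s1, s2, s3, fun h => s4 ?_, fun h => s5 fun s => ?_⟩
  · obtain ⟨t, ht⟩ := exists_goodAt_of_moves h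
    exact ⟨t, (evalAt_ne_zero_iff (hσ := σ.2) C.isField t).mpr ht⟩
  · by_contra hs
    exact h ⟨_, rfl, s, (evalAt_ne_zero_iff (hσ := σ.2) C.isField s).mp hs⟩

theorem step_moves {a : LinePic X} {σ : {σ : T ⟶ X // σ ≫ p = 𝟙 T}}
    (h : Moves (a * C.π σ) (ptOf σ.1)) : C.l1 (a * C.π σ) = C.l1 a := by
  obtain ⟨-, -, h3, h4, -⟩ := C.step a σ
  have := h4 h
  rw [χ_def, χ_def] at h3
  omega

theorem χ_mul_cls (a : LinePic X) (P : List {σ : T ⟶ X // σ ≫ p = 𝟙 T}) :
    C.χ (a * C.cls P) = C.χ a + P.length := by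
  induction P generalizing a with
  | nil => simp [cls_nil]
  | cons σ P ih =>
    rw [cls_cons, ← mul_assoc, ih, (C.step a σ).2.2.1]
    push_cast [List.length_cons]
    ring

theorem l1_mul_cls (a : LinePic X) (P : List {σ : T ⟶ X // σ ≫ p = 𝟙 T}) :
    C.l1 (a * C.cls P) ≤ C.l1 a := by
  induction P generalizing a with
  | nil => simp [cls_nil]
  | cons σ P ih =>
    rw [cls_cons, ← mul_assoc]
    exact (ih _).trans (C.step a σ).2.1

theorem moves_π (σ : {σ : T ⟶ X // σ ≫ p = 𝟙 T}) {z : X} (hz : z ≠ ptOf σ.1) :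
    Moves (C.π σ) z := by
  obtain ⟨E, hE⟩ := C.divisor σ
  exact ⟨E.L, hE, E.s, goodAt_divisor E (C.closed_pt σ) hz⟩

variable [IsIntegral X]

include C in
theorem exists_ne_zero_of_h0 {L : LineSys X} (h : 0 < h0 p (LinePic.mk L)) :
    ∃ s : L.Sec ⊤, s ≠ 0 := by
  letI : Field Γ(T, ⊤) := C.isField.toField
  rw [h0_mk] at h
  haveI := C.finite0 L
  haveI : Nontrivial (SecOver p L ⊤) := Module.finrank_pos_iff.mp h
  obtain ⟨s, hs⟩ := exists_ne (0 : SecOver p L ⊤)
  exact ⟨s, hs⟩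

include C in
theorem h0_pos {L : LineSys X} {s : L.Sec ⊤} (hs : s ≠ 0) : 0 < h0 p (LinePic.mk L) := by
  letI : Field Γ(T, ⊤) := C.isField.toField
  rw [h0_mk]
  haveI := C.finite0 L
  haveI : Nontrivial (SecOver p L ⊤) := ⟨⟨s, 0, hs⟩⟩
  exact Module.finrank_pos

theorem l1_le_one {a : LinePic X} (h : 0 < h0 p a) : C.l1 a ≤ C.l1 1 := by
  obtain ⟨L, rfl⟩ := LinePic.mk_surjective a
  obtain ⟨s, hs⟩ := C.exists_ne_zero_of_h0 h
  haveI := C.finite1 (LineSys.triv X)
  rw [LinePic.one_def, l1, l1, h1_mk, h1_mk]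
  exact h1_le_triv C.Tc C.isField hs

/-- A class with sections is either trivial or has a point to remove. -/
theorem eq_one_or_exists {a : LinePic X} (h : 0 < h0 p a) :
    a = 1 ∨ ∃ σ a', a = a' * C.π σ ∧ 0 < h0 p a' := by
  obtain ⟨L, rfl⟩ := LinePic.mk_surjective a
  obtain ⟨s, hs⟩ := C.exists_ne_zero_of_h0 h
  by_cases hall : ∀ z, GoodAt s z
  · left
    rw [LinePic.one_def, LinePic.mk_eq_mk]
    obtain ⟨e, -⟩ := exists_iso_of_associated s (LineSys.trivSec X ⊤) fun x b q hq => by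
      refine ⟨X.basicOpen (s.coord x (L.U x) le_top le_rfl), (goodAt_iff s le_rfl hq.1).mp (hall q),
        le_inf (X.basicOpen_le _) fun _ _ => trivial, ?_, ?_⟩
      · intro V hV
        show IsRegular (res hV 1)
        rw [map_one]
        exact isRegular_one
      · refine Associated.symm ((associated_one_iff_isUnit.mpr ?_).trans (Associated.refl 1))
        rw [← s.coord_res x (X.basicOpen_le _) le_top le_rfl]
        exact RingedSpace.isUnit_res_basicOpen _ _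
    exact ⟨e⟩
  · right
    push Not at hall
    obtain ⟨z, hz⟩ := hall
    obtain ⟨σ, hσ⟩ := C.exists_pt {w | ¬ GoodAt s w} (isOpen_goodAt s).isClosed_compl ⟨z, hz⟩
    obtain ⟨E, hE⟩ := C.divisor σ
    refine ⟨σ, LinePic.mk (L.tens E.L.dual), ?_, ?_⟩
    · rw [← hE, LineDivisor.cls, ← LinePic.mk_mul, ← LinePic.mk_inv, inv_mul_cancel_right]
    · have he : LinePic.mk L = LinePic.mk ((L.tens E.L.dual).tens E.L) := by
        rw [← LinePic.mk_mul, ← LinePic.mk_mul, ← LinePic.mk_inv, inv_mul_cancel_right]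
      let e := (LinePic.mk_eq_mk.mp he).some
      have hbad : ¬ GoodAt (e.secMap ⊤ s) (ptOf σ.1) := fun hg =>
        hσ ((goodAt_isImage (LineSys.Iso.isImage_secMap e s) _).mpr hg)
      obtain ⟨r, hr⟩ := mem_range_mulSec p (hσ := σ.2) E (L := L.tens E.L.dual)
        (show SecOver p _ ⊤ from e.secMap ⊤ s) fun hq => by
        by_contra h0
        exact hbad ((evalAt_ne_zero_iff (hσ := σ.2) C.isField _).mp h0)
      refine C.h0_pos (s := (r : (L.tens E.L.dual).Sec ⊤)) fun hr0 => hs ?_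
      apply (e.secMap ⊤).injective
      rw [map_zero]
      refine hr.symm.trans ?_
      rw [show r = 0 from hr0, map_zero]
      rfl

/-- Classes with sections are effective. -/
theorem effective {a : LinePic X} (h : 0 < h0 p a) :
    ∃ P, a = C.cls P ∧ C.χ a = C.χ 1 + P.length := by
  suffices ∀ (n : ℕ) (a : LinePic X), 0 < h0 p a → C.χ a ≤ n - C.l1 1 →
      ∃ P, a = C.cls P by
    obtain ⟨P, rfl⟩ := this ((C.χ a + C.l1 1).toNat) a h (by omega)
    refine ⟨P, rfl, ?_⟩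
    have := C.χ_mul_cls 1 P
    rwa [one_mul] at this
  intro n
  induction n with
  | zero =>
    intro a h hle
    have := C.l1_le_one h
    rw [χ_def] at hle
    omega
  | succ n ih =>
    intro a h hle
    rcases C.eq_one_or_exists h with rfl | ⟨σ, a', rfl, h'⟩
    · exact ⟨[], C.cls_nil.symm⟩
    · obtain ⟨P, rfl⟩ := ih a' h' (by rw [(C.step a' σ).2.2.1] at hle; push_cast at hle; omega)
      exact ⟨σ :: P, by rw [cls_cons, mul_comm]⟩

variable (e : {σ : T ⟶ X // σ ≫ p = 𝟙 T})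

include e in
/-- Every class is a difference of point classes. -/
theorem exists_points (a : LinePic X) : ∃ P Q, a = C.cls P / C.cls Q := by
  let j := (1 - C.χ a).toNat
  have h : 0 < h0 p (a * C.cls (List.replicate j e)) := by
    have := C.χ_mul_cls a (List.replicate j e)
    rw [χ_def, List.length_replicate] at this
    omega
  obtain ⟨P, hP, -⟩ := C.effective h
  exact ⟨P, List.replicate j e, by rw [← hP, mul_div_cancel_right]⟩

theorem χ_div_cls (a : LinePic X) (P : List {σ : T ⟶ X // σ ≫ p = 𝟙 T}) :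
    C.χ (a / C.cls P) = C.χ a - P.length := by
  have := C.χ_mul_cls (a / C.cls P) P
  rw [div_mul_cancel] at this
  omega

include e in
theorem χ_mul (a b : LinePic X) : C.χ (a * b) = C.χ a + C.χ b - C.χ 1 := by
  obtain ⟨P, Q, rfl⟩ := C.exists_points e b
  rw [mul_div_assoc', C.χ_div_cls, C.χ_mul_cls, C.χ_div_cls]
  have := C.χ_mul_cls 1 P
  rw [one_mul] at this
  omega

include e in
/-- Large classes have no `H¹`. -/
theorem exists_bound [IsAffine T] : ∃ N : ℤ, ∀ a, N ≤ C.χ a → C.l1 a = 0 := by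
  haveI := C.finite1 (LineSys.triv X)
  obtain ⟨L, hL⟩ := exists_h1_eq_zero C.Tc C.isField
  refine ⟨C.χ (LinePic.mk L) - C.χ 1 + 1, fun a ha => ?_⟩
  have h1 : C.χ a = C.χ (a / LinePic.mk L) + C.χ (LinePic.mk L) - C.χ 1 := by
    rw [← C.χ_mul e, div_mul_cancel]
  have hpos : 0 < h0 p (a / LinePic.mk L) := by
    rw [h1, χ_def C (a / _)] at ha
    omega
  obtain ⟨P, hP, -⟩ := C.effective hpos
  have := C.l1_mul_cls (LinePic.mk L) P
  rw [← hP, mul_comm, div_mul_cancel] at this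
  have h2 : C.l1 (LinePic.mk L) = 0 := by rw [l1, h1_mk]; exact hL
  omega

include C in
theorem nonempty_diff_finite (hX : ∀ σ : {σ : T ⟶ X // σ ≫ p = 𝟙 T},
      ¬ IsOpen ({ptOf σ.1} : Set X)) (F : List {σ : T ⟶ X // σ ≫ p = 𝟙 T}) :
    ∀ G : Set X, IsOpen G → G.Nonempty →
      ∃ G' ⊆ G, IsOpen G' ∧ G'.Nonempty ∧ ∀ σ ∈ F, ptOf σ.1 ∉ G' := by
  induction F with
  | nil => exact fun G hG hne => ⟨G, subset_rfl, hG, hne, by simp⟩
  | cons σ F ih =>
    intro G hG hne
    obtain ⟨G', hsub, hG', hne', hF⟩ := ih G hG hne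
    refine ⟨G' \ {ptOf σ.1}, Set.sdiff_subset.trans hsub, hG'.sdiff (C.closed_pt σ), ?_, ?_⟩
    · by_contra h
      rw [Set.not_nonempty_iff_eq_empty, Set.sdiff_eq_empty] at h
      exact hX σ (Set.Subset.antisymm h (by
        obtain ⟨w, hw⟩ := hne'
        intro v hv
        rw [Set.mem_singleton_iff] at hv
        rw [hv, ← h hw]
        exact hw) ▸ hG')
    · intro τ hτ hmem
      rcases List.mem_cons.mp hτ with rfl | hτ
      · exact hmem.2 rfl
      · exact hF τ hτ hmem.1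

variable (S : Set {σ : T ⟶ X // σ ≫ p = 𝟙 T})

include e in
/-- The translation lemma. -/
theorem translate [IsAffine T] (hX : ∀ σ : {σ : T ⟶ X // σ ≫ p = 𝟙 T},
      ¬ IsOpen ({ptOf σ.1} : Set X))
    (hS : ∀ G : Set X, IsOpen G → G.Nonempty → ∃ σ ∈ S, ptOf σ.1 ∈ G)
    (a : LinePic X) (ha : C.χ a = 0) :
    ∃ P Q, (∀ σ ∈ P, σ ∈ S) ∧ (∀ σ ∈ Q, σ ∈ S) ∧ P.length = Q.length ∧
      C.l1 (a * (C.cls P / C.cls Q)) = 0 := by
  suffices ∀ (r : ℕ) (a : LinePic X), C.χ a = 0 → C.l1 a = r →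
      ∃ P Q, (∀ σ ∈ P, σ ∈ S) ∧ (∀ σ ∈ Q, σ ∈ S) ∧ P.length = Q.length ∧
        C.l1 (a * (C.cls P / C.cls Q)) = 0 from this _ a ha rfl
  intro r
  induction r using Nat.strong_induction_on with
  | _ r ih =>
  intro a ha hr
  rcases Nat.eq_zero_or_pos r with rfl | hpos
  · exact ⟨[], [], by simp, by simp, rfl, by simpa [cls_nil] using hr⟩
  have hh : 0 < h0 p a := by rw [χ_def] at ha; omega
  obtain ⟨L, rfl⟩ := LinePic.mk_surjective a
  obtain ⟨s, hs⟩ := C.exists_ne_zero_of_h0 hh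
  obtain ⟨σ, hσS, hσg⟩ := hS _ (isOpen_goodAt s) (exists_goodAt hs)
  set b := LinePic.mk L / C.π σ with hb
  have hbσ : b * C.π σ = LinePic.mk L := div_mul_cancel _ _
  have hl1b : C.l1 b = r := by
    rw [← hr, ← hbσ]
    exact (C.step_moves (by rw [hbσ]; exact ⟨L, rfl, s, hσg⟩)).symm
  have hχb : C.χ b = -1 := by
    have := (C.step b σ).2.2.1
    rw [hbσ, ha] at this
    omega
  obtain ⟨τ, hτS, hlt⟩ : ∃ τ ∈ S, C.l1 (b * C.π τ) < r := by
    by_contra hno
    push Not at hno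
    have heq : ∀ τ ∈ S, Moves (b * C.π τ) (ptOf τ.1) := fun τ hτ => by
      by_contra hm
      have h1 := (C.step b τ).2.2.1
      have h2 := (C.step b τ).2.2.2.2 hm
      have h3 := (C.step b τ).2.1
      have h4 := hno τ hτ
      rw [χ_def, χ_def] at h1
      omega
    have key : ∀ n : ℕ, ∃ F : List {σ : T ⟶ X // σ ≫ p = 𝟙 T},
        F.length = n ∧ C.l1 (b * C.cls F) = r := by
      intro n
      induction n with
      | zero => exact ⟨[], rfl, by simpa [cls_nil] using hl1b⟩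
      | succ n ihn =>
        obtain ⟨F, hFn, hF⟩ := ihn
        obtain ⟨G, -, hG, hGne, hGF⟩ := C.nonempty_diff_finite hX F Set.univ isOpen_univ
          ⟨ptOf σ.1, trivial⟩
        obtain ⟨τ, hτS, hτG⟩ := hS G hG hGne
        refine ⟨τ :: F, by simp [hFn], ?_⟩
        have hmv : ∀ F' : List {σ : T ⟶ X // σ ≫ p = 𝟙 T}, (∀ ρ ∈ F', ptOf ρ.1 ≠ ptOf τ.1) →
            Moves (C.cls F') (ptOf τ.1) := by
          intro F' hF'
          induction F' with
          | nil => exact moves_one _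
          | cons ρ F' ih' =>
            rw [cls_cons]
            exact (C.moves_π ρ (hF' ρ (by simp)).symm).mul
              (ih' fun ρ' hρ' => hF' ρ' (List.mem_cons_of_mem _ hρ'))
        have h := C.step_moves (a := b * C.cls F) (σ := τ) (by
          rw [mul_right_comm]
          exact (heq τ hτS).mul (hmv F fun ρ hρ hc => hGF ρ hρ (hc ▸ hτG)))
        rw [cls_cons, mul_comm (C.π τ), ← mul_assoc, h, hF]
    obtain ⟨N, hN⟩ := C.exists_bound e
    obtain ⟨F, hFn, hF⟩ := key (N + 1).toNat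
    have := hN (b * C.cls F) (by rw [C.χ_mul_cls, hFn, hχb]; omega)
    omega
  obtain ⟨P, Q, hP, hQ, hlen, hPQ⟩ := ih _ hlt (b * C.π τ)
    (by rw [(C.step b τ).2.2.1, hχb]; rfl) rfl
  refine ⟨τ :: P, σ :: Q, List.forall_mem_cons.mpr ⟨hτS, hP⟩, List.forall_mem_cons.mpr ⟨hσS, hQ⟩,
    by simp [hlen], ?_⟩
  rw [cls_cons, cls_cons, mul_div_mul_comm, ← mul_assoc]
  rwa [hb, div_mul_eq_mul_div, mul_div_assoc] at hPQ

end CurveCtx

end Fermat.Agent.Jacobian.FieldTheory
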