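/-
Rational points of the base change of the curve to an algebraically closed field.
-/
import Fermat.Agent.Jacobian.FieldTheory.Theory
import Fermat.Agent.Jacobian.Curve.PointDivisor
import Fermat.Agent.Jacobian.Cohom.Properties

set_option autoImplicit false
set_option linter.unusedVariables false

universe u

open CategoryTheory CategoryTheory.Limits AlgebraicGeometry AlgebraicGeometry.RelPicard
  TopologicalSpace Opposite NeronModelInfra

noncomputable section

namespace Fermat.Agent.Jacobian.FieldTheory

variable {k : Type u} [Field k] {C : Scheme.{u}} {c : C ⟶ Spec (CommRingCat.of k)}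
  {ε : SchemeHomOver (𝟙 (Spec (CommRingCat.of k))) c}
variable {K : Type u} [Field K] {t : Spec (CommRingCat.of K) ⟶ Spec (CommRingCat.of k)}

theorem subsingleton_spec_field (K : Type u) [Field K] :
    Subsingleton (Spec (CommRingCat.of K)) :=
  inferInstanceAs (Subsingleton (PrimeSpectrum K))

theorem nonempty_spec_field (K : Type u) [Field K] : Nonempty (Spec (CommRingCat.of K)) :=
  inferInstanceAs (Nonempty (PrimeSpectrum K))

/-- A section of the projection is the graph of a point. -/
def graphPt (σ : SchemeHomOver t c) :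
    {s : Spec (CommRingCat.of K) ⟶ pullback c t // s ≫ pullback.snd c t = 𝟙 _} :=
  ⟨pullback.lift σ.1 (𝟙 _) (by rw [σ.2, Category.id_comp]), pullback.lift_snd _ _ _⟩

/-- The point of a section of the projection. -/
def toPt (s : {s : Spec (CommRingCat.of K) ⟶ pullback c t // s ≫ pullback.snd c t = 𝟙 _}) :
    SchemeHomOver t c :=
  ⟨s.1 ≫ pullback.fst c t, by
    rw [Category.assoc, pullback.condition, ← Category.assoc, s.2, Category.id_comp]⟩

theorem toPt_graphPt (σ : SchemeHomOver t c) : toPt (graphPt σ) = σ :=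
  Subtype.ext (pullback.lift_fst _ _ _)

theorem graphPt_toPt
    (s : {s : Spec (CommRingCat.of K) ⟶ pullback c t // s ≫ pullback.snd c t = 𝟙 _}) :
    graphPt (toPt s) = s := by
  refine Subtype.ext (pullback.hom_ext ?_ ?_)
  · exact pullback.lift_fst _ _ _
  · rw [s.2]
    exact pullback.lift_snd _ _ _

theorem graphPt_constPt (P : SchemeHomOver (𝟙 (Spec (CommRingCat.of k))) c) :
    (graphPt (constPt t P)).1 = rigSection c t P := rfl

/-- Constant points are dense. -/
theorem exists_constPt_mem [IsAlgClosed k] [LocallyOfFiniteType c] [Subsingleton (Spec (CommRingCat.of K))]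
    [Nonempty (Spec (CommRingCat.of K))] {G : Set ↑(pullback c t)} (hG : IsOpen G)
    (hne : G.Nonempty) :
    ∃ P : SchemeHomOver (𝟙 (Spec (CommRingCat.of k))) c,
      ptOf (graphPt (constPt t P)).1 ∈ G := by
  haveI : JacobsonSpace C := LocallyOfFiniteType.jacobsonSpace c
  haveI := subsingleton_spec_field k
  haveI : UniversallyOpen t := inferInstance
  haveI : UniversallyOpen (pullback.fst c t) :=
    MorphismProperty.pullback_fst (P := @UniversallyOpen) c t inferInstance
  obtain ⟨_, ⟨z, hz, rfl⟩, hy⟩ := nonempty_inter_closedPoints (hne.image (pullback.fst c t))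
    ((pullback.fst c t).isOpenMap G hG).isLocallyClosed
  let P : SchemeHomOver (𝟙 (Spec (CommRingCat.of k))) c :=
    ⟨pointOfClosedPoint c _ hy, pointOfClosedPoint_comp c _ hy⟩
  refine ⟨P, ?_⟩
  obtain ⟨τ, hτ, -⟩ := Scheme.exists_preimage_of_isPullback (isPullback_rigSection t P) z
    (IsLocalRing.closedPoint k) (pointOfClosedPoint_apply c _ hy _).symm
  show ptOf (rigSection c t P) ∈ G
  rw [ptOf, Subsingleton.elim (Classical.arbitrary (Spec (CommRingCat.of K))) τ, hτ]
  exact hz

variable [IsAlgClosed K]

theorem isClosed_ptOf [LocallyOfFiniteType c] [IsSeparated c]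
    [Subsingleton (Spec (CommRingCat.of K))] [Nonempty (Spec (CommRingCat.of K))]
    (s : {s : Spec (CommRingCat.of K) ⟶ pullback c t // s ≫ pullback.snd c t = 𝟙 _}) :
    IsClosed ({ptOf s.1} : Set ↑(pullback c t)) := by
  haveI := isClosedImmersion_of_comp_eq_id _ _ s.2
  have h := s.1.isClosedEmbedding.isClosed_range
  rwa [Set.range_eq_singleton_iff.mpr fun x => congrArg s.1 (Subsingleton.elim x
    (Classical.arbitrary _))] at h

theorem exists_ptOf_mem [LocallyOfFiniteType c] [Subsingleton (Spec (CommRingCat.of K))]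
    [Nonempty (Spec (CommRingCat.of K))] {Z : Set ↑(pullback c t)} (hZ : IsClosed Z)
    (hne : Z.Nonempty) :
    ∃ s : {s : Spec (CommRingCat.of K) ⟶ pullback c t // s ≫ pullback.snd c t = 𝟙 _},
      ptOf s.1 ∈ Z := by
  haveI : JacobsonSpace ↑(pullback c t) :=
    LocallyOfFiniteType.jacobsonSpace (pullback.snd c t)
  obtain ⟨z, hzZ, hz⟩ := nonempty_inter_closedPoints hne hZ.isLocallyClosed
  refine ⟨⟨pointOfClosedPoint (pullback.snd c t) z hz, pointOfClosedPoint_comp _ z hz⟩, ?_⟩
  rw [ptOf, pointOfClosedPoint_apply]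
  exact hzZ

end Fermat.Agent.Jacobian.FieldTheory
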