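/-
The numerical theory of classes on the base changes of the curve to algebraically closed fields.
-/
import Fermat.Agent.Jacobian.FieldTheory.Points

set_option autoImplicit false
set_option linter.unusedVariables false

universe u

open CategoryTheory CategoryTheory.Limits AlgebraicGeometry AlgebraicGeometry.RelPicard
  TopologicalSpace Opposite NeronModelInfra

noncomputable section

namespace Fermat.Agent.Jacobian.FieldTheory

variable {k : Type u} [Field k] {C : Scheme.{u}} {c : C ⟶ Spec (CommRingCat.of k)}
  {ε : SchemeHomOver (𝟙 (Spec (CommRingCat.of k))) c}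

theorem exists_list_preimage {α β : Type*} {S : Set β} {f : α → β} (hS : S ⊆ Set.range f) :
    ∀ l : List β, (∀ b ∈ l, b ∈ S) → ∃ l' : List α, l'.map f = l := by
  intro l
  induction l with
  | nil => exact fun _ => ⟨[], rfl⟩
  | cons b l ih =>
    intro h
    obtain ⟨a, ha⟩ := hS (h b (by simp))
    obtain ⟨l', hl'⟩ := ih fun x hx => h x (List.mem_cons_of_mem _ hx)
    exact ⟨a :: l', by rw [List.map_cons, ha, hl']⟩

theorem isIntegral_baseChange (hB : GeometricallyIntegral c) {K : Type u} [Field K]
    (t : Spec (CommRingCat.of K) ⟶ Spec (CommRingCat.of k)) : IsIntegral (pullback c t) :=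
  haveI := hB
  haveI := subsingleton_spec_field K
  GeometricallyIntegral.isIntegral_of_subsingleton (pullback.snd c t)

/-- The context of the abstract theory for a base change of the curve. -/
def ctxAt [IsSeparated c] [LocallyOfFiniteType c] (M : CurveModel c ε) (D : DiagDivisor c)
    (hP : PointDivisorProperty c D) (K : Type u) [Field K] [IsAlgClosed K]
    (t : Spec (CommRingCat.of K) ⟶ Spec (CommRingCat.of k)) :
    CurveCtx (pullback.snd c t) where
  Tc := M.chart t
  isField := isField_Γ_spec K
  finite0 L := (M.finite_sec_cechH1 t L).1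
  finite1 L := (M.finite_sec_cechH1 t L).2
  π s := D.pointClass (toPt s)
  divisor s := by
    obtain ⟨s, rfl⟩ : ∃ σ, graphPt σ = s := ⟨toPt s, graphPt_toPt s⟩
    rw [toPt_graphPt]
    exact hP.1 K t s
  closed_pt s := isClosed_ptOf s
  exists_pt Z hZ hne := exists_ptOf_mem hZ hne

theorem cls_map_graphPt [IsSeparated c] [LocallyOfFiniteType c] (M : CurveModel c ε)
    (D : DiagDivisor c) (hP : PointDivisorProperty c D) {K : Type u} [Field K] [IsAlgClosed K]
    {t : Spec (CommRingCat.of K) ⟶ Spec (CommRingCat.of k)} (P : List (SchemeHomOver t c)) :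
    (ctxAt M D hP K t).cls (P.map graphPt) = D.listClass P := by
  induction P with
  | nil => rfl
  | cons σ P ih =>
    rw [List.map_cons, CurveCtx.cls_cons, ih]
    show D.pointClass (toPt (graphPt σ)) * _ = (List.map D.pointClass (σ :: P)).prod
    rw [toPt_graphPt, List.map_cons, List.prod_cons]
    rfl

theorem cls_map_toPt [IsSeparated c] [LocallyOfFiniteType c] (M : CurveModel c ε)
    (D : DiagDivisor c) (hP : PointDivisorProperty c D) {K : Type u} [Field K] [IsAlgClosed K]
    {t : Spec (CommRingCat.of K) ⟶ Spec (CommRingCat.of k)}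
    (P : List {s : Spec (CommRingCat.of K) ⟶ pullback c t // s ≫ pullback.snd c t = 𝟙 _}) :
    (ctxAt M D hP K t).cls P = D.listClass (P.map toPt) := by
  conv_lhs => rw [show P = (P.map toPt).map graphPt by simp [Function.comp_def, graphPt_toPt]]
  exact cls_map_graphPt M D hP _

/-- E: the numerical theory of classes over algebraically closed fields. -/
theorem fieldTheory [IsAlgClosed k] [IsProper c] (M : CurveModel c ε) (D : DiagDivisor c)
    (hB : CurveBasicsProperty c) (hP : PointDivisorProperty c D)
    (hone : M.UnitClassProperty) : M.FieldTheory D := by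
  have hint : ∀ (K : Type u) [Field K] (t : Spec (CommRingCat.of K) ⟶ Spec (CommRingCat.of k)),
      IsIntegral (pullback c t) := fun K _ t => isIntegral_baseChange hB.1 t
  have hne : ¬ Subsingleton C := by
    intro hC
    haveI : GeometricallyIntegral c := hB.1
    haveI := subsingleton_spec_field k
    haveI : IsIntegral C := GeometricallyIntegral.isIntegral_of_subsingleton c
    obtain ⟨U, hU, hx, -⟩ := exists_affine_nhd (U := (⊤ : C.Opens)) (z := genericPoint C) trivial
    have hU' : U = ⊤ := by
      ext w
      simp only [SetLike.mem_coe, Opens.coe_top, Set.mem_univ, iff_true]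
      rw [Subsingleton.elim w (genericPoint C)]
      exact hx
    subst hU'
    exact (hB.2 ⊤ hU ⟨_, hx⟩).2 (isField_of_isIntegral_of_subsingleton C)
  refine ⟨fun K _ _ t a σ => ?_, fun K _ _ t a b => ?_, fun K _ _ t a => ?_,
    fun K _ _ t a h => ?_, fun K _ _ t a ha => ?_⟩
  all_goals haveI := subsingleton_spec_field K
  all_goals haveI := nonempty_spec_field K
  all_goals haveI := hint K t
  all_goals let Γ' := ctxAt M D hP K t
  · have := (Γ'.step a (graphPt σ)).2.2.1
    rw [show Γ'.π (graphPt σ) = D.pointClass σ from congrArg D.pointClass (toPt_graphPt σ)] at this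
    exact this
  · have := Γ'.χ_mul (graphPt (constPt t ε)) a b
    rw [show Γ'.χ 1 = M.chiOne from (hone.2 K t).1] at this
    exact this
  · obtain ⟨P, Q, h⟩ := Γ'.exists_points (graphPt (constPt t ε)) a
    exact ⟨P.map toPt, Q.map toPt, by rw [h, cls_map_toPt, cls_map_toPt]⟩
  · obtain ⟨P, h1, h2⟩ := Γ'.effective h
    refine ⟨P.map toPt, by rw [h1, cls_map_toPt], ?_⟩
    rw [show Γ'.χ 1 = M.chiOne from (hone.2 K t).1] at h2
    rw [List.length_map]
    exact h2
  · let e := graphPt (constPt t ε)
    have hX : ∀ s : {s : Spec (CommRingCat.of K) ⟶ pullback c t // s ≫ pullback.snd c t = 𝟙 _},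
        ¬ IsOpen ({ptOf s.1} : Set ↑(pullback c t)) := by
      intro s hs
      refine hne ⟨fun a b => ?_⟩
      have hall : ∀ z : ↑(pullback c t), z = ptOf s.1 := by
        intro z
        by_contra hz
        obtain ⟨w, hw1, hw2⟩ := nonempty_preirreducible_inter hs
          (Γ'.closed_pt s).isOpen_compl ⟨_, rfl⟩ ⟨z, hz⟩
        exact hw2 hw1
      haveI : Surjective t := ⟨fun x => ⟨Classical.arbitrary _,
        @Subsingleton.elim _ (subsingleton_spec_field k) _ _⟩⟩
      haveI : Surjective (pullback.fst c t) :=
        MorphismProperty.pullback_fst (P := @Surjective) c t inferInstance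
      obtain ⟨a', rfl⟩ := (pullback.fst c t).surjective a
      obtain ⟨b', rfl⟩ := (pullback.fst c t).surjective b
      rw [hall a', hall b']
    let S : Set {s : Spec (CommRingCat.of K) ⟶ pullback c t // s ≫ pullback.snd c t = 𝟙 _} :=
      Set.range fun P => graphPt (constPt t P)
    have hS : ∀ G : Set ↑(pullback c t), IsOpen G → G.Nonempty → ∃ σ ∈ S, ptOf σ.1 ∈ G :=
      fun G hG hGne => by
        obtain ⟨P, hP'⟩ := exists_constPt_mem (c := c) (t := t) hG hGne
        exact ⟨_, ⟨P, rfl⟩, hP'⟩
    have hz : Γ'.χ (a * D.pointClass (constPt t ε) ^ ((M.genus : ℤ) - 1)) = 0 := by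
      have he : D.pointClass (constPt t ε) = Γ'.π e := (congrArg D.pointClass (toPt_graphPt _)).symm
      have hcls : D.pointClass (constPt t ε) ^ ((M.genus : ℤ) - 1) =
          Γ'.cls (List.replicate M.genus e) / Γ'.cls [e] := by
        rw [he, CurveCtx.cls, CurveCtx.cls, List.map_replicate, List.prod_replicate,
          List.map_singleton, List.prod_singleton, zpow_sub, zpow_natCast, zpow_one, div_eq_mul_inv]
      have ha' : Γ'.χ a = M.chiOne := ha
      rw [hcls, mul_div_assoc', Γ'.χ_div_cls, Γ'.χ_mul_cls, List.length_replicate, ha', hone.1]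
      simp
    obtain ⟨P, Q, hPS, hQS, hlen, h⟩ := Γ'.translate e S hX hS _ hz
    obtain ⟨P', rfl⟩ := exists_list_preimage (subset_refl S) P hPS
    obtain ⟨Q', rfl⟩ := exists_list_preimage (subset_refl S) Q hQS
    refine ⟨P', Q', by simpa using hlen, ?_⟩
    rw [show P'.map (fun P => graphPt (constPt t P)) = (P'.map (constPt t)).map graphPt from
        by simp [Function.comp_def],
      show Q'.map (fun P => graphPt (constPt t P)) = (Q'.map (constPt t)).map graphPt from
        by simp [Function.comp_def], cls_map_graphPt, cls_map_graphPt] at h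
    rw [mul_right_comm]
    exact h

end Fermat.Agent.Jacobian.FieldTheory
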